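/-
P3-G block (G-C), file 1: semilocal Gauss rings and the lifting step.

This is the reducible-fibre version of `Fermat/Agent/N4/Cover/Lift.lean`.  There the ring `W` was
LOCAL with maximal ideal `ϖ W` (special fibre integral).  Here `W ⊆ F₀` is only required to be a
subring containing `R` such that

* `ϖ W` is contained in the Jacobson radical of `W` (`rad`),
* `R ∩ ϖ W = ϖ R` (`sat`: the special fibre of `R` embeds into `W / ϖ W`),
* `ϖ` is not a unit of `W`.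

In the application `W` is the intersection of the (two) Gauss valuation rings of the vertical
components of a reduced, possibly reducible special fibre.

`exists_lift`: if at every maximal ideal `𝔫 ∋ ϖ` of `R` there is a local root `η` of `f`
(`f / η ^ p ∈ R_𝔫ˣ`) which, after multiplication by some `c ∉ 𝔫`, is congruent to `g` modulo `ϖ W`
(in the form `c (η ^ (-k) - g ^ (-k)) ∈ ϖ W` for all `k`), then for every `k` there is `b ∈ F₀` with
`b t ^ k` integral over `R` and `b ≡ g ^ (-k)` modulo `ϖ W`.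
-/
import Mathlib

set_option autoImplicit false

namespace Fermat.Agent.P3G.Cover.Lift

variable {R F₀ F' : Type*} [CommRing R] [IsDomain R] [Field F₀] [Algebra R F₀]
  [Field F'] [Algebra F₀ F'] [Algebra R F'] [IsScalarTower R F₀ F']

/-- The subring `W ⊇ R` of `F₀` is a *semilocal Gauss ring* for `(R, ϖ)`: `ϖ W` lies in the
Jacobson radical of `W`, `R ∩ ϖ W = ϖ R`, and `ϖ` is not a unit of `W`. -/
structure IsSemiGaussRing (W : Subring F₀) (ϖ : R) : Prop where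
  le : ∀ r : R, algebraMap R F₀ r ∈ W
  rad : ∀ w ∈ W, (1 + algebraMap R F₀ ϖ * w)⁻¹ ∈ W
  sat : ∀ r : R, (∃ w ∈ W, algebraMap R F₀ r = algebraMap R F₀ ϖ * w) → ϖ ∣ r
  not_unit : (algebraMap R F₀ ϖ)⁻¹ ∉ W

variable {W : Subring F₀} {ϖ : R}

omit [IsDomain R] in
theorem IsSemiGaussRing.ne_zero (hW : IsSemiGaussRing W ϖ) : algebraMap R F₀ ϖ ≠ 0 := by
  intro h0
  apply hW.not_unit
  rw [h0, inv_zero]
  exact W.zero_mem

omit [IsDomain R] in
/-- A unit of `W` stays a unit after adding an element of `ϖ W`. -/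
theorem IsSemiGaussRing.inv_mem_of_sub_mem (hW : IsSemiGaussRing W ϖ) {x y : F₀}
    (hxi : x⁻¹ ∈ W) (hx0 : x ≠ 0) (hxy : ∃ w ∈ W, y - x = algebraMap R F₀ ϖ * w) :
    y⁻¹ ∈ W := by
  obtain ⟨w, hw, hyx⟩ := hxy
  have h1 := hW.rad (w * x⁻¹) (W.mul_mem hw hxi)
  have hy : y = x * (1 + algebraMap R F₀ ϖ * (w * x⁻¹)) := by
    have : y = x + algebraMap R F₀ ϖ * w := by linear_combination hyx
    rw [this]
    field_simp
  rw [hy, mul_inv]
  exact W.mul_mem hxi h1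

omit [IsDomain R] in
/-- Difference of inverses. -/
theorem IsSemiGaussRing.inv_sub_inv_mem {x y : F₀}
    (hxi : x⁻¹ ∈ W) (hx0 : x ≠ 0) (hyi : y⁻¹ ∈ W) (hy0 : y ≠ 0)
    (hxy : ∃ w ∈ W, y - x = algebraMap R F₀ ϖ * w) :
    ∃ w ∈ W, y⁻¹ - x⁻¹ = algebraMap R F₀ ϖ * w := by
  obtain ⟨w, hw, hyx⟩ := hxy
  refine ⟨-(w * x⁻¹ * y⁻¹), W.neg_mem (W.mul_mem (W.mul_mem hw hxi) hyi), ?_⟩
  have : y⁻¹ - x⁻¹ = -((y - x) * x⁻¹ * y⁻¹) := by field_simp; ring
  rw [this, hyx]; ring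

omit [IsDomain R] in
/-- Difference of powers. -/
theorem IsSemiGaussRing.pow_sub_pow_mem {x y : F₀} (hx : x ∈ W) (hy : y ∈ W)
    (hxy : ∃ w ∈ W, y - x = algebraMap R F₀ ϖ * w) (k : ℕ) :
    ∃ w ∈ W, y ^ k - x ^ k = algebraMap R F₀ ϖ * w := by
  obtain ⟨w, hw, hyx⟩ := hxy
  obtain ⟨c, hc⟩ := sub_dvd_pow_sub_pow (⟨y, hy⟩ : W) ⟨x, hx⟩ k
  have hc' : y ^ k - x ^ k = (y - x) * (c : F₀) := by
    have := congrArg (fun z : W => (z : F₀)) hc
    simpa using this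
  exact ⟨w * c, W.mul_mem hw c.2, by rw [hc', hyx]; ring⟩

omit [IsDomain R] in
/-- The strong local congruence `η ≡ g` modulo `ϖ W` implies the weak one used in `exists_lift`
(with multiplier `1`). -/
theorem IsSemiGaussRing.weak_of_strong (hW : IsSemiGaussRing W ϖ) {g η : F₀} (hg0 : g ≠ 0)
    (hgi : g⁻¹ ∈ W) (hη0 : η ≠ 0) (hηg : ∃ w ∈ W, η - g = algebraMap R F₀ ϖ * w) (k : ℕ) :
    ∃ w ∈ W, algebraMap R F₀ 1 * ((η⁻¹) ^ k - (g⁻¹) ^ k) = algebraMap R F₀ ϖ * w := by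
  have hηi : η⁻¹ ∈ W := hW.inv_mem_of_sub_mem hgi hg0 hηg
  have hinv : ∃ w ∈ W, η⁻¹ - g⁻¹ = algebraMap R F₀ ϖ * w :=
    IsSemiGaussRing.inv_sub_inv_mem hgi hg0 hηi hη0 hηg
  obtain ⟨w, hw, h⟩ := IsSemiGaussRing.pow_sub_pow_mem (ϖ := ϖ) hgi hηi hinv k
  exact ⟨w, hw, by rw [map_one, one_mul, h]⟩

omit [IsDomain R] in
/-- **The lifting step** (semilocal version). -/
theorem exists_lift (hinj : Function.Injective (algebraMap R F₀)) (hW : IsSemiGaussRing W ϖ)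
    {p : ℕ} (hp : 0 < p) {f g : F₀} {t : F'}
    (ht : t ^ p = algebraMap F₀ F' f) (hgi : g⁻¹ ∈ W)
    (hloc : ∀ 𝔫 : Ideal R, 𝔫.IsMaximal → ϖ ∈ 𝔫 → ∃ η : F₀, η ≠ 0 ∧
      (∃ s r : R, s ∉ 𝔫 ∧ r ∉ 𝔫 ∧ f * algebraMap R F₀ s = η ^ p * algebraMap R F₀ r) ∧
      ∃ c : R, c ∉ 𝔫 ∧ ∀ k : ℕ, ∃ w ∈ W,
        algebraMap R F₀ c * ((η⁻¹) ^ k - (g⁻¹) ^ k) = algebraMap R F₀ ϖ * w)
    (k : ℕ) :
    ∃ b : F₀, IsIntegral R (algebraMap F₀ F' b * t ^ k) ∧
      ∃ w ∈ W, b - (g⁻¹) ^ k = algebraMap R F₀ ϖ * w := by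
  classical
  have hπ0 := hW.ne_zero
  -- the ideal of admissible multipliers
  let 𝔞 : Ideal R :=
    { carrier := {r | ∃ b : F₀, IsIntegral R (algebraMap F₀ F' b * t ^ k) ∧
        ∃ w ∈ W, b - algebraMap R F₀ r * (g⁻¹) ^ k = algebraMap R F₀ ϖ * w}
      zero_mem' := ⟨0, by rw [map_zero, zero_mul]; exact isIntegral_zero, 0, W.zero_mem, by simp⟩
      add_mem' := by
        rintro r₁ r₂ ⟨b₁, hb₁, w₁, hw₁, h₁⟩ ⟨b₂, hb₂, w₂, hw₂, h₂⟩
        refine ⟨b₁ + b₂, ?_, w₁ + w₂, W.add_mem hw₁ hw₂, ?_⟩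
        · rw [map_add, add_mul]; exact hb₁.add hb₂
        · rw [map_add]; linear_combination h₁ + h₂
      smul_mem' := by
        rintro c r ⟨b, hb, w, hw, h⟩
        refine ⟨algebraMap R F₀ c * b, ?_, algebraMap R F₀ c * w, W.mul_mem (hW.le c) hw, ?_⟩
        · rw [map_mul, mul_assoc, ← IsScalarTower.algebraMap_apply R F₀ F']
          exact isIntegral_algebraMap.mul hb
        · rw [smul_eq_mul, map_mul]; linear_combination (algebraMap R F₀ c) * h }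
  have hmem : ∀ r : R, r ∈ 𝔞 ↔ ∃ b : F₀, IsIntegral R (algebraMap F₀ F' b * t ^ k) ∧
        ∃ w ∈ W, b - algebraMap R F₀ r * (g⁻¹) ^ k = algebraMap R F₀ ϖ * w := fun r => Iff.rfl
  have hϖ𝔞 : ϖ ∈ 𝔞 := by
    rw [hmem]
    refine ⟨0, by rw [map_zero, zero_mul]; exact isIntegral_zero, -(g⁻¹) ^ k,
      W.neg_mem (W.pow_mem hgi k), by ring⟩
  have htop : 𝔞 = ⊤ := by
    by_contra hne
    obtain ⟨𝔫, h𝔫max, h𝔫⟩ := Ideal.exists_le_maximal 𝔞 hne
    obtain ⟨η, hη0, ⟨s, r, hs, hr, hfs⟩, c, hc, hcong⟩ := hloc 𝔫 h𝔫max (h𝔫 hϖ𝔞)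
    have hs0 : algebraMap R F₀ s ≠ 0 := fun h0 => hs (by
      have : s = 0 := hinj (by rw [h0, map_zero])
      rw [this]; exact 𝔫.zero_mem)
    have hsk : c * s ^ k ∈ 𝔞 := by
      rw [hmem]
      refine ⟨algebraMap R F₀ c * ((algebraMap R F₀ s) ^ k * (η⁻¹) ^ k), ?_, ?_⟩
      · have hint : IsIntegral R (algebraMap F₀ F' ((algebraMap R F₀ s) ^ k * (η⁻¹) ^ k) * t ^ k) := by
          apply IsIntegral.of_pow hp
          have hF₀ : ((algebraMap R F₀ s) ^ k * (η⁻¹) ^ k) ^ p * f ^ k =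
              algebraMap R F₀ (s ^ (k * (p - 1)) * r ^ k) := by
            have hf' : f = η ^ p * algebraMap R F₀ r / algebraMap R F₀ s := by
              rw [eq_div_iff hs0]; exact hfs
            rw [hf', map_mul, map_pow, map_pow]
            obtain ⟨q, rfl⟩ : ∃ q, p = q + 1 := ⟨p - 1, by omega⟩
            simp only [Nat.add_sub_cancel]
            have e1 : (η⁻¹) ^ k = (η ^ k)⁻¹ := inv_pow η k
            rw [e1, mul_pow, div_pow, mul_pow, inv_pow, ← pow_mul, ← pow_mul, ← pow_mul,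
              mul_comm (q + 1) k, mul_add, mul_one, pow_add]
            field_simp
          have : (algebraMap F₀ F' ((algebraMap R F₀ s) ^ k * (η⁻¹) ^ k) * t ^ k) ^ p =
              algebraMap R F' (s ^ (k * (p - 1)) * r ^ k) := by
            rw [mul_pow, ← pow_mul, mul_comm k p, pow_mul, ht, ← map_pow (algebraMap F₀ F') f k,
              ← map_pow (algebraMap F₀ F') _ p, ← map_mul, hF₀,
              ← IsScalarTower.algebraMap_apply R F₀ F']
          rw [this]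
          exact isIntegral_algebraMap
        rw [map_mul, mul_assoc, ← IsScalarTower.algebraMap_apply R F₀ F']
        exact isIntegral_algebraMap.mul hint
      · obtain ⟨w, hw, h⟩ := hcong k
        refine ⟨algebraMap R F₀ s ^ k * w, W.mul_mem (W.pow_mem (hW.le s) k) hw, ?_⟩
        rw [map_mul, map_pow]
        linear_combination (algebraMap R F₀ s) ^ k * h
    have : c ∈ 𝔫 ∨ s ^ k ∈ 𝔫 := h𝔫max.isPrime.mem_or_mem (h𝔫 hsk)
    rcases this with h | h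
    · exact hc h
    · exact hs (h𝔫max.isPrime.mem_of_pow_mem k h)
  have h1 : (1 : R) ∈ 𝔞 := by rw [htop]; trivial
  obtain ⟨b, hb, w, hw, h⟩ := (hmem 1).1 h1
  exact ⟨b, hb, w, hw, by rw [map_one, one_mul] at h; exact h⟩

end Fermat.Agent.P3G.Cover.Lift
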