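/-
P3-G block (G-C), file 2: the idempotent of the cyclic cover algebra modulo `ϖ`, semilocal version
(reducible reduced special fibre).  Copy of `Fermat/Agent/N4/Cover/Idempotent.lean` with the local
Gauss ring replaced by a semilocal Gauss ring `IsSemiGaussRing W ϖ` (`Fermat/Agent/P3G/Cover/Lift.lean`).

Setting: `R` integrally closed with fraction field `F₀`, `W ⊆ F₀` a semilocal Gauss ring for `(R, ϖ)`
(integrally closed, fraction field `F₀`), `F' = F₀(t)`, `t ^ p = f`, `X ^ p - f` irreducible, `p` a unit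
and `ζ_p` in `R` and `W`; `g` a unit of `W` with `g ^ (-p) f ≡ 1` modulo `ϖ W`.

* `claimB` : `𝒜(R) ∩ ϖ 𝒜(W) = ϖ 𝒜(R)` (`𝒜` = integral closure in `F'`);
* `IdemData.isIntegral_eps`, `isIntegral_eps_sq` : for `ε = p⁻¹ ∑ b_k t ^ k` with `b_k t ^ k` integral
  over `R` and `b_k ≡ g ^ (-k)` modulo `ϖ W`: `ε` is integral over `R` and `(ε ^ 2 - ε) / ϖ` is integral
  over `R`;
* `IdemData.not_isIntegral_eps`, `not_isIntegral_eps_sub_one` : `ε / ϖ` and `(ε - 1) / ϖ` are not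
  integral over `W`.
-/
import Mathlib
import Fermat.Agent.N4.Cover.KummerClosure
import Fermat.Agent.P3G.Cover.Lift

set_option autoImplicit false

open Polynomial IntermediateField

namespace Fermat.Agent.P3G.Cover.Idempotent

open Fermat.Agent.N4.Cover.KummerClosure Fermat.Agent.P3G.Cover.Lift

variable {R F₀ F' : Type*} [CommRing R] [IsDomain R] [IsIntegrallyClosed R] [Field F₀]
  [Algebra R F₀] [IsFractionRing R F₀] [Field F'] [Algebra F₀ F'] [Algebra R F']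
  [IsScalarTower R F₀ F']
variable {W : Subring F₀} {ϖ : R}

/-- Divisibility by powers of `ϖ` can be tested in `W`. -/
theorem pow_dvd_of_mem (hW : IsSemiGaussRing W ϖ) (n : ℕ) (r : R)
    (h : ∃ w ∈ W, algebraMap R F₀ r = algebraMap R F₀ ϖ ^ n * w) : ϖ ^ n ∣ r := by
  have hπ0 := hW.ne_zero
  induction n generalizing r with
  | zero => simp
  | succ n ih =>
    obtain ⟨w, hw, hrw⟩ := h
    have h1 : ϖ ∣ r := by
      apply hW.sat r
      refine ⟨algebraMap R F₀ ϖ ^ n * w, W.mul_mem (W.pow_mem (hW.le ϖ) n) hw, ?_⟩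
      rw [hrw, pow_succ]; ring
    obtain ⟨r', rfl⟩ := h1
    have h2 : algebraMap R F₀ r' = algebraMap R F₀ ϖ ^ n * w := by
      rw [map_mul, pow_succ] at hrw
      have : algebraMap R F₀ ϖ * algebraMap R F₀ r' =
          algebraMap R F₀ ϖ * (algebraMap R F₀ ϖ ^ n * w) := by rw [hrw]; ring
      exact mul_left_cancel₀ hπ0 this
    obtain ⟨c, rfl⟩ := ih r' ⟨w, hw, h2⟩
    exact ⟨c, by rw [pow_succ]; ring⟩

section ClaimB

variable [IsIntegrallyClosed W] [IsFractionRing W F₀]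
variable {p : ℕ} (hp : p.Prime) (hpR : IsUnit ((p : ℕ) : R)) {ζR : R} (hζR : IsPrimitiveRoot ζR p)
  (hpW : IsUnit ((p : ℕ) : W)) {ζW : W} (hζW : IsPrimitiveRoot ζW p)
variable {f : F₀} {t : F'} (ht : t ^ p = algebraMap F₀ F' f) (htop : F₀⟮t⟯ = ⊤)
  (hirr : Irreducible (X ^ p - C f : F₀[X]))

include hp hpR hζR hpW hζW ht htop hirr in
/-- **Claim B.**  An element integral over `R` which is `ϖ` times an element integral over `W` is
`ϖ` times an element integral over `R`. -/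
theorem claimB (hW : IsSemiGaussRing W ϖ) {z : F'} (hz : IsIntegral R z)
    (hzW : IsIntegral W (algebraMap F₀ F' (algebraMap R F₀ ϖ)⁻¹ * z)) :
    IsIntegral R (algebraMap F₀ F' (algebraMap R F₀ ϖ)⁻¹ * z) := by
  have hπ0 := hW.ne_zero
  obtain ⟨P, hdeg, rfl⟩ := exists_eq_aeval hp ht htop z
  have hP' : algebraMap F₀ F' (algebraMap R F₀ ϖ)⁻¹ * aeval t P =
      aeval t (C (algebraMap R F₀ ϖ)⁻¹ * P) := by
    rw [map_mul, aeval_C]
  have hdeg' : (C (algebraMap R F₀ ϖ)⁻¹ * P).natDegree < p :=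
    lt_of_le_of_lt (natDegree_C_mul_le _ _) hdeg
  rw [hP'] at hzW ⊢
  rw [isIntegral_aeval_iff hp hpR hζR ht htop hirr hdeg] at hz
  rw [isIntegral_aeval_iff hp hpW hζW ht htop hirr hdeg'] at hzW
  rw [isIntegral_aeval_iff hp hpR hζR ht htop hirr hdeg']
  intro k hk
  obtain ⟨r, hr⟩ := hz k hk
  obtain ⟨w, hw⟩ := hzW k hk
  rw [coeff_C_mul] at hw ⊢
  have hdiv : ϖ ^ p ∣ r := by
    apply pow_dvd_of_mem hW p r
    refine ⟨(w : F₀), w.2, ?_⟩
    have hw' : ((w : W) : F₀) = ((algebraMap R F₀ ϖ)⁻¹ * P.coeff k) ^ p * f ^ k := hw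
    rw [hr, hw', mul_pow, inv_pow]
    field_simp
  obtain ⟨r', rfl⟩ := hdiv
  refine ⟨r', ?_⟩
  rw [map_mul, map_pow] at hr
  rw [mul_pow, inv_pow, mul_assoc, ← hr]
  field_simp

end ClaimB

section Transfer

omit [IsDomain R] [IsIntegrallyClosed R] [IsFractionRing R F₀] in
/-- Integrality over `R` implies integrality over the Gauss ring `W ⊇ R`. -/
theorem isIntegral_of_isIntegral (hW : IsSemiGaussRing W ϖ) {x : F'} (hx : IsIntegral R x) :
    IsIntegral W x := by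
  let φ : R →+* W := (algebraMap R F₀).codRestrict W hW.le
  refine hx.map_of_comp_eq φ (RingHom.id F') ?_
  ext r
  show algebraMap F₀ F' (algebraMap R F₀ r) = algebraMap R F' r
  rw [← IsScalarTower.algebraMap_apply]

omit [IsDomain R] [IsIntegrallyClosed R] [IsFractionRing R F₀] [Algebra R F']
  [IsScalarTower R F₀ F'] [Algebra R F₀] in
/-- Elements of `W` are integral over `W`. -/
theorem isIntegral_algebraMap_of_mem {x : F₀} (hx : x ∈ W) : IsIntegral W (algebraMap F₀ F' x) := by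
  have : algebraMap F₀ F' x = algebraMap W F' ⟨x, hx⟩ := rfl
  rw [this]
  exact isIntegral_algebraMap

end Transfer

section Idem

/-- The model idempotent `e = p⁻¹ ∑ (t / g) ^ k`. -/
noncomputable def eModel (p : ℕ) (g : F₀) (t : F') : F' :=
  algebraMap F₀ F' ((p : F₀)⁻¹) * ∑ k ∈ Finset.range p, (algebraMap F₀ F' g⁻¹ * t) ^ k

/-- The lifted idempotent `ε = p⁻¹ ∑ b_k t ^ k`. -/
noncomputable def eps (p : ℕ) (b : ℕ → F₀) (t : F') : F' :=
  algebraMap F₀ F' ((p : F₀)⁻¹) * ∑ k ∈ Finset.range p, algebraMap F₀ F' (b k) * t ^ k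

/-- The data of the idempotent computation. -/
structure IdemData (W : Subring F₀) (ϖ : R) (p : ℕ) (f g : F₀) (t : F') : Prop where
  gauss : IsSemiGaussRing W ϖ
  prime : p.Prime
  ht : t ^ p = algebraMap F₀ F' f
  hg0 : g ≠ 0
  hf0 : f ≠ 0
  hg : g ∈ W
  hgi : g⁻¹ ∈ W
  hτ : ∃ w₀ ∈ W, (g⁻¹) ^ p * f - 1 = algebraMap R F₀ ϖ * w₀
  hpi : ((p : ℕ) : F₀)⁻¹ ∈ W
  hp0 : ((p : ℕ) : F₀) ≠ 0

variable {p : ℕ} {f g : F₀} {t : F'}

omit [IsDomain R] [IsIntegrallyClosed R] [IsFractionRing R F₀] in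
theorem IdemData.f_mem (h : IdemData W ϖ p f g t) : f ∈ W := by
  obtain ⟨w₀, hw₀, hw⟩ := h.hτ
  have hg0 := h.hg0
  have : f = g ^ p * (1 + algebraMap R F₀ ϖ * w₀) := by
    rw [← hw, inv_pow]; field_simp; ring
  rw [this]
  exact W.mul_mem (W.pow_mem h.hg p) (W.add_mem W.one_mem (W.mul_mem (h.gauss.le ϖ) hw₀))

omit [IsDomain R] [IsIntegrallyClosed R] [IsFractionRing R F₀] in
theorem IdemData.isIntegral_t (h : IdemData W ϖ p f g t) : IsIntegral W t := by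
  apply IsIntegral.of_pow h.prime.pos
  rw [h.ht]
  exact isIntegral_algebraMap_of_mem h.f_mem

omit [IsDomain R] [IsIntegrallyClosed R] [IsFractionRing R F₀] in
theorem IdemData.isIntegral_tau (h : IdemData W ϖ p f g t) :
    IsIntegral W (algebraMap F₀ F' g⁻¹ * t) :=
  (isIntegral_algebraMap_of_mem h.hgi).mul h.isIntegral_t

omit [IsDomain R] [IsIntegrallyClosed R] [IsFractionRing R F₀] in
/-- `τ ^ p - 1 = ϖ w₀`. -/
theorem IdemData.tau_pow (h : IdemData W ϖ p f g t) :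
    ∃ w₀ ∈ W, (algebraMap F₀ F' g⁻¹ * t) ^ p - 1 =
      algebraMap F₀ F' (algebraMap R F₀ ϖ) * algebraMap F₀ F' w₀ := by
  obtain ⟨w₀, hw₀, hw⟩ := h.hτ
  refine ⟨w₀, hw₀, ?_⟩
  rw [mul_pow, h.ht, ← map_pow, ← map_mul, ← map_mul, ← hw, map_sub, map_one]

/-- The geometric-sum identity: with `s = ∑_{k<p} τ ^ k`, `s ^ 2 - p s = (τ ^ p - 1) Q`. -/
theorem geom_identity {A : Type*} [CommRing A] (τ : A) (p : ℕ) :
    (∑ k ∈ Finset.range p, τ ^ k) ^ 2 - (p : A) * ∑ k ∈ Finset.range p, τ ^ k =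
      (τ ^ p - 1) * ∑ k ∈ Finset.range p, ∑ i ∈ Finset.range k, τ ^ i := by
  have h1 : (∑ k ∈ Finset.range p, τ ^ k) * (τ - 1) = τ ^ p - 1 := geom_sum_mul τ p
  have h2 : (∑ k ∈ Finset.range p, τ ^ k) - (p : A) =
      (∑ k ∈ Finset.range p, ∑ i ∈ Finset.range k, τ ^ i) * (τ - 1) := by
    rw [Finset.sum_mul]
    have : (p : A) = ∑ _k ∈ Finset.range p, (1 : A) := by simp
    rw [this, ← Finset.sum_sub_distrib]
    refine Finset.sum_congr rfl fun k _ => ?_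
    rw [geom_sum_mul]
  rw [← h1]
  linear_combination (∑ k ∈ Finset.range p, τ ^ k) * h2

omit [IsIntegrallyClosed R] [IsFractionRing R F₀] in
/-- `(e ^ 2 - e) / ϖ` is integral over `W`. -/
theorem IdemData.isIntegral_eModel_sq (h : IdemData W ϖ p f g t) :
    IsIntegral W (algebraMap F₀ F' (algebraMap R F₀ ϖ)⁻¹ * (eModel p g t ^ 2 - eModel p g t)) := by
  obtain ⟨w₀, hw₀, hw⟩ := h.tau_pow
  have hπ0 := h.gauss.ne_zero
  set τ := algebraMap F₀ F' g⁻¹ * t with hτdef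
  set c := algebraMap F₀ F' ((p : F₀)⁻¹) with hc
  have hcp : (p : F') * c = 1 := by
    rw [hc, ← map_natCast (algebraMap F₀ F'), ← map_mul, mul_inv_cancel₀ h.hp0, map_one]
  have hid := geom_identity τ p
  have key : eModel p g t ^ 2 - eModel p g t =
      algebraMap F₀ F' (algebraMap R F₀ ϖ) *
        (c ^ 2 * algebraMap F₀ F' w₀ * ∑ k ∈ Finset.range p, ∑ i ∈ Finset.range k, τ ^ i) := by
    unfold eModel
    rw [← hτdef, ← hc]
    have : (c * ∑ k ∈ Finset.range p, τ ^ k) ^ 2 - c * ∑ k ∈ Finset.range p, τ ^ k =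
        c ^ 2 * ((∑ k ∈ Finset.range p, τ ^ k) ^ 2 - (p : F') * ∑ k ∈ Finset.range p, τ ^ k) := by
      linear_combination (c * ∑ k ∈ Finset.range p, τ ^ k) * hcp
    rw [this, hid, hw]
    ring
  rw [key, ← mul_assoc, ← map_mul, inv_mul_cancel₀ hπ0, map_one, one_mul]
  refine ((isIntegral_algebraMap_of_mem h.hpi).pow 2 |>.mul (isIntegral_algebraMap_of_mem hw₀)).mul ?_
  refine IsIntegral.sum _ fun k _ => IsIntegral.sum _ fun i _ => ?_
  exact h.isIntegral_tau.pow i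

/-- The lifting data: `b_k t ^ k` integral over `R`, `b_k ≡ g ^ (-k)` modulo `ϖ W`. -/
structure LiftData (W : Subring F₀) (ϖ : R) (g : F₀) (t : F') (b : ℕ → F₀) : Prop where
  isIntegral : ∀ k, IsIntegral R (algebraMap F₀ F' (b k) * t ^ k)
  cong : ∀ k, ∃ w ∈ W, b k - (g⁻¹) ^ k = algebraMap R F₀ ϖ * w

variable {b : ℕ → F₀}

omit [IsDomain R] [IsIntegrallyClosed R] [IsFractionRing R F₀] in
/-- `ε` is integral over `R`. -/
theorem IdemData.isIntegral_eps (h : IdemData W ϖ p f g t) (hb : LiftData W ϖ g t b)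
    (hpR : IsUnit ((p : ℕ) : R)) : IsIntegral R (eps p b t) := by
  obtain ⟨u, hu⟩ := hpR
  have h1 : algebraMap R F₀ ((u⁻¹ : Rˣ) : R) = ((p : ℕ) : F₀)⁻¹ := by
    have h2 : algebraMap R F₀ ((u⁻¹ : Rˣ) : R) * ((p : ℕ) : F₀) = 1 := by
      rw [← map_natCast (algebraMap R F₀), ← hu, ← map_mul, Units.inv_mul, map_one]
    exact eq_inv_of_mul_eq_one_left h2
  unfold eps
  rw [← h1, ← IsScalarTower.algebraMap_apply R F₀ F']
  exact isIntegral_algebraMap.mul (IsIntegral.sum _ fun k _ => hb.isIntegral k)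

omit [IsIntegrallyClosed R] [IsFractionRing R F₀] in
/-- `e` is integral over `W`. -/
theorem IdemData.isIntegral_eModel (h : IdemData W ϖ p f g t) : IsIntegral W (eModel p g t) :=
  (isIntegral_algebraMap_of_mem h.hpi).mul
    (IsIntegral.sum _ fun k _ => h.isIntegral_tau.pow k)

omit [IsIntegrallyClosed R] [IsFractionRing R F₀] in
/-- `(ε - e) / ϖ` is integral over `W`. -/
theorem IdemData.isIntegral_eps_sub (h : IdemData W ϖ p f g t) (hb : LiftData W ϖ g t b) :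
    IsIntegral W (algebraMap F₀ F' (algebraMap R F₀ ϖ)⁻¹ * (eps p b t - eModel p g t)) := by
  have hπ0 := h.gauss.ne_zero
  choose w hw hwb using hb.cong
  have key : eps p b t - eModel p g t = algebraMap F₀ F' (algebraMap R F₀ ϖ) *
      (algebraMap F₀ F' ((p : F₀)⁻¹) * ∑ k ∈ Finset.range p, algebraMap F₀ F' (w k) * t ^ k) := by
    have hterm : ∀ k, algebraMap F₀ F' (b k) * t ^ k - (algebraMap F₀ F' g⁻¹ * t) ^ k =
        algebraMap F₀ F' (algebraMap R F₀ ϖ) * (algebraMap F₀ F' (w k) * t ^ k) := by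
      intro k
      rw [mul_pow, ← map_pow, ← sub_mul, ← map_sub, hwb k, map_mul]
      ring
    unfold eps eModel
    rw [← mul_sub, ← Finset.sum_sub_distrib]
    simp_rw [hterm]
    rw [← Finset.mul_sum]
    ring
  rw [key, ← mul_assoc, ← map_mul, inv_mul_cancel₀ hπ0, map_one, one_mul]
  refine (isIntegral_algebraMap_of_mem h.hpi).mul (IsIntegral.sum _ fun k _ => ?_)
  exact (isIntegral_algebraMap_of_mem (hw k)).mul (h.isIntegral_t.pow k)

omit [IsIntegrallyClosed R] [IsFractionRing R F₀] in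
/-- `(ε ^ 2 - ε) / ϖ` is integral over `W`. -/
theorem IdemData.isIntegral_eps_sq_W (h : IdemData W ϖ p f g t) (hb : LiftData W ϖ g t b)
    (hpR : IsUnit ((p : ℕ) : R)) :
    IsIntegral W (algebraMap F₀ F' (algebraMap R F₀ ϖ)⁻¹ * (eps p b t ^ 2 - eps p b t)) := by
  have h1 := h.isIntegral_eModel_sq
  have h2 := h.isIntegral_eps_sub hb
  have h3 : IsIntegral W (eps p b t) := isIntegral_of_isIntegral h.gauss (h.isIntegral_eps hb hpR)
  have h4 := h.isIntegral_eModel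
  have : algebraMap F₀ F' (algebraMap R F₀ ϖ)⁻¹ * (eps p b t ^ 2 - eps p b t) =
      algebraMap F₀ F' (algebraMap R F₀ ϖ)⁻¹ * (eModel p g t ^ 2 - eModel p g t) +
        algebraMap F₀ F' (algebraMap R F₀ ϖ)⁻¹ * (eps p b t - eModel p g t) *
          (eps p b t + eModel p g t - 1) := by ring
  rw [this]
  exact h1.add (h2.mul ((h3.add h4).sub isIntegral_one))

end Idem

theorem arith_inv₁ {F : Type*} [Field F] (a c : F) (q : ℕ) (ha : a ≠ 0) (hc : c ≠ 0) :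
    a⁻¹ = (a⁻¹ * c⁻¹) ^ (q + 1) * c ^ (q + 1) * a ^ q := by
  rw [mul_pow, inv_pow, inv_pow, pow_succ a q]
  field_simp

theorem arith_inv₂ {F : Type*} [Field F] (a c g f : F) (q : ℕ) (ha : a ≠ 0) (hc : c ≠ 0)
    (hg : g ≠ 0) (hf : f ≠ 0) :
    a⁻¹ = (a⁻¹ * (c⁻¹ * g⁻¹)) ^ (q + 1) * f * c ^ (q + 1) * ((g⁻¹) ^ (q + 1) * f)⁻¹ * a ^ q := by
  rw [mul_pow, mul_pow, inv_pow, inv_pow, inv_pow, pow_succ a q]
  field_simp

section Final

variable [IsIntegrallyClosed W] [IsFractionRing W F₀]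
variable {p : ℕ} {f g : F₀} {t : F'} {b : ℕ → F₀}

/-- `(ε ^ 2 - ε) / ϖ` is integral over `R`. -/
theorem IdemData.isIntegral_eps_sq (h : IdemData W ϖ p f g t) (hb : LiftData W ϖ g t b)
    (hpR : IsUnit ((p : ℕ) : R)) {ζR : R} (hζR : IsPrimitiveRoot ζR p)
    (hpW : IsUnit ((p : ℕ) : W)) {ζW : W} (hζW : IsPrimitiveRoot ζW p)
    (htop : F₀⟮t⟯ = ⊤) (hirr : Irreducible (X ^ p - C f : F₀[X])) :
    IsIntegral R (algebraMap F₀ F' (algebraMap R F₀ ϖ)⁻¹ * (eps p b t ^ 2 - eps p b t)) :=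
  claimB h.prime hpR hζR hpW hζW h.ht htop hirr h.gauss
    (((h.isIntegral_eps hb hpR).pow 2).sub (h.isIntegral_eps hb hpR))
    (h.isIntegral_eps_sq_W hb hpR)

/-- The polynomial representing `e`. -/
noncomputable def modelPoly (p : ℕ) (g : F₀) : F₀[X] :=
  ∑ k ∈ Finset.range p, C (((p : F₀)⁻¹) * (g⁻¹) ^ k) * X ^ k

omit [IsFractionRing W F₀] [IsIntegrallyClosed W] in
theorem aeval_modelPoly (p : ℕ) (g : F₀) (t : F') :
    aeval t (modelPoly p g) = eModel p g t := by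
  unfold modelPoly eModel
  rw [map_sum, Finset.mul_sum]
  refine Finset.sum_congr rfl fun k _ => ?_
  rw [map_mul, aeval_C, map_pow, aeval_X, map_mul, map_pow, mul_pow]
  ring

omit [IsFractionRing W F₀] [IsIntegrallyClosed W] in
theorem coeff_modelPoly (p : ℕ) (g : F₀) {k : ℕ} (hk : k < p) :
    (modelPoly p g).coeff k = ((p : F₀)⁻¹) * (g⁻¹) ^ k := by
  unfold modelPoly
  rw [finset_sum_coeff]
  simp only [coeff_C_mul_X_pow]
  rw [Finset.sum_eq_single k]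
  · simp
  · intro j _ hjk
    rw [if_neg (Ne.symm hjk)]
  · intro hk'
    exact absurd (Finset.mem_range.2 hk) hk'

omit [IsFractionRing W F₀] [IsIntegrallyClosed W] in
theorem natDegree_modelPoly_lt {p : ℕ} (hp : 0 < p) (g : F₀) : (modelPoly p g).natDegree < p := by
  by_cases h0 : modelPoly p g = 0
  · rw [h0, natDegree_zero]; exact hp
  rw [natDegree_lt_iff_degree_lt h0, degree_lt_iff_coeff_zero]
  intro m hm
  unfold modelPoly
  rw [finset_sum_coeff]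
  refine Finset.sum_eq_zero fun k hk => ?_
  rw [coeff_C_mul_X_pow, if_neg]
  have := Finset.mem_range.1 hk
  omega

omit [IsIntegrallyClosed R] [IsFractionRing R F₀] in
/-- `e / ϖ` is not integral over `W`. -/
theorem IdemData.not_isIntegral_eModel (h : IdemData W ϖ p f g t)
    (hpW : IsUnit ((p : ℕ) : W)) {ζW : W} (hζW : IsPrimitiveRoot ζW p)
    (htop : F₀⟮t⟯ = ⊤) (hirr : Irreducible (X ^ p - C f : F₀[X])) :
    ¬ IsIntegral W (algebraMap F₀ F' (algebraMap R F₀ ϖ)⁻¹ * eModel p g t) := by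
  intro hint
  have hπ0 := h.gauss.ne_zero
  have hp0 := h.hp0
  have hP' : algebraMap F₀ F' (algebraMap R F₀ ϖ)⁻¹ * eModel p g t =
      aeval t (C (algebraMap R F₀ ϖ)⁻¹ * modelPoly p g) := by
    rw [map_mul, aeval_C, aeval_modelPoly]
  have hdeg' : (C (algebraMap R F₀ ϖ)⁻¹ * modelPoly p g).natDegree < p :=
    lt_of_le_of_lt (natDegree_C_mul_le _ _) (natDegree_modelPoly_lt h.prime.pos g)
  rw [hP', isIntegral_aeval_iff h.prime hpW hζW h.ht htop hirr hdeg'] at hint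
  obtain ⟨w, hw⟩ := hint 0 h.prime.pos
  rw [coeff_C_mul, coeff_modelPoly _ _ h.prime.pos, pow_zero, mul_one, pow_zero, mul_one] at hw
  have hw' : ((w : W) : F₀) = ((algebraMap R F₀ ϖ)⁻¹ * ((p : ℕ) : F₀)⁻¹) ^ p := hw
  apply h.gauss.not_unit
  have : (algebraMap R F₀ ϖ)⁻¹ =
      (w : F₀) * ((p : ℕ) : F₀) ^ p * (algebraMap R F₀ ϖ) ^ (p - 1) := by
    rw [hw']
    obtain ⟨q, hq⟩ : ∃ q, p = q + 1 := ⟨p - 1, by have := h.prime.pos; omega⟩
    have hq' : p - 1 = q := by omega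
    rw [hq', hq]
    rw [hq] at hp0
    exact arith_inv₁ _ _ q hπ0 hp0
  rw [this]
  exact W.mul_mem (W.mul_mem w.2 (W.pow_mem (natCast_mem W p) p))
    (W.pow_mem (h.gauss.le ϖ) _)

omit [IsIntegrallyClosed R] [IsFractionRing R F₀] in
/-- `(e - 1) / ϖ` is not integral over `W`. -/
theorem IdemData.not_isIntegral_eModel_sub_one (h : IdemData W ϖ p f g t)
    (hpW : IsUnit ((p : ℕ) : W)) {ζW : W} (hζW : IsPrimitiveRoot ζW p)
    (htop : F₀⟮t⟯ = ⊤) (hirr : Irreducible (X ^ p - C f : F₀[X])) :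
    ¬ IsIntegral W (algebraMap F₀ F' (algebraMap R F₀ ϖ)⁻¹ * (eModel p g t - 1)) := by
  intro hint
  have hπ0 := h.gauss.ne_zero
  have hp0 := h.hp0
  have hg0 := h.hg0
  have hf0 := h.hf0
  have h1p : 1 < p := h.prime.one_lt
  have hP' : algebraMap F₀ F' (algebraMap R F₀ ϖ)⁻¹ * (eModel p g t - 1) =
      aeval t (C (algebraMap R F₀ ϖ)⁻¹ * (modelPoly p g - C 1)) := by
    rw [map_mul, aeval_C, map_sub, aeval_modelPoly, aeval_C, map_one]
  have hdeg' : (C (algebraMap R F₀ ϖ)⁻¹ * (modelPoly p g - C 1)).natDegree < p := by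
    refine lt_of_le_of_lt (natDegree_C_mul_le _ _) (lt_of_le_of_lt (natDegree_sub_le _ _) ?_)
    rw [natDegree_C, max_lt_iff]
    exact ⟨natDegree_modelPoly_lt h.prime.pos g, h.prime.pos⟩
  rw [hP', isIntegral_aeval_iff h.prime hpW hζW h.ht htop hirr hdeg'] at hint
  obtain ⟨w, hw⟩ := hint 1 h1p
  rw [coeff_C_mul, coeff_sub, coeff_modelPoly _ _ h1p, coeff_C_of_ne_zero one_ne_zero, sub_zero,
    pow_one, pow_one] at hw
  have hw' : ((w : W) : F₀) =
      ((algebraMap R F₀ ϖ)⁻¹ * (((p : ℕ) : F₀)⁻¹ * g⁻¹)) ^ p * f := hw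
  -- the unit `υ = g ^ (-p) f`
  obtain ⟨w₀, hw₀, hυ⟩ := h.hτ
  have hυW : (g⁻¹) ^ p * f ∈ W := W.mul_mem (W.pow_mem h.hgi p) h.f_mem
  have hυi : ((g⁻¹) ^ p * f)⁻¹ ∈ W :=
    h.gauss.inv_mem_of_sub_mem (by rw [inv_one]; exact W.one_mem) one_ne_zero ⟨w₀, hw₀, hυ⟩
  apply h.gauss.not_unit
  have : (algebraMap R F₀ ϖ)⁻¹ =
      (w : F₀) * ((p : ℕ) : F₀) ^ p * ((g⁻¹) ^ p * f)⁻¹ * (algebraMap R F₀ ϖ) ^ (p - 1) := by
    rw [hw']
    obtain ⟨q, hq⟩ : ∃ q, p = q + 1 := ⟨p - 1, by omega⟩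
    have hq' : p - 1 = q := by omega
    rw [hq', hq]
    rw [hq] at hp0
    exact arith_inv₂ _ _ g f q hπ0 hp0 hg0 hf0
  rw [this]
  exact W.mul_mem (W.mul_mem (W.mul_mem w.2 (W.pow_mem (natCast_mem W p) p)) hυi)
    (W.pow_mem (h.gauss.le ϖ) _)

omit [IsIntegrallyClosed R] [IsFractionRing R F₀] in
/-- `ε / ϖ` is not integral over `W`. -/
theorem IdemData.not_isIntegral_eps (h : IdemData W ϖ p f g t) (hb : LiftData W ϖ g t b)
    (hpW : IsUnit ((p : ℕ) : W)) {ζW : W} (hζW : IsPrimitiveRoot ζW p)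
    (htop : F₀⟮t⟯ = ⊤) (hirr : Irreducible (X ^ p - C f : F₀[X])) :
    ¬ IsIntegral W (algebraMap F₀ F' (algebraMap R F₀ ϖ)⁻¹ * eps p b t) := by
  intro hint
  apply h.not_isIntegral_eModel hpW hζW htop hirr
  have : algebraMap F₀ F' (algebraMap R F₀ ϖ)⁻¹ * eModel p g t =
      algebraMap F₀ F' (algebraMap R F₀ ϖ)⁻¹ * eps p b t -
        algebraMap F₀ F' (algebraMap R F₀ ϖ)⁻¹ * (eps p b t - eModel p g t) := by ring
  rw [this]
  exact hint.sub (h.isIntegral_eps_sub hb)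

omit [IsIntegrallyClosed R] [IsFractionRing R F₀] in
/-- `(ε - 1) / ϖ` is not integral over `W`. -/
theorem IdemData.not_isIntegral_eps_sub_one (h : IdemData W ϖ p f g t) (hb : LiftData W ϖ g t b)
    (hpW : IsUnit ((p : ℕ) : W)) {ζW : W} (hζW : IsPrimitiveRoot ζW p)
    (htop : F₀⟮t⟯ = ⊤) (hirr : Irreducible (X ^ p - C f : F₀[X])) :
    ¬ IsIntegral W (algebraMap F₀ F' (algebraMap R F₀ ϖ)⁻¹ * (eps p b t - 1)) := by
  intro hint
  apply h.not_isIntegral_eModel_sub_one hpW hζW htop hirr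
  have : algebraMap F₀ F' (algebraMap R F₀ ϖ)⁻¹ * (eModel p g t - 1) =
      algebraMap F₀ F' (algebraMap R F₀ ϖ)⁻¹ * (eps p b t - 1) -
        algebraMap F₀ F' (algebraMap R F₀ ϖ)⁻¹ * (eps p b t - eModel p g t) := by ring
  rw [this]
  exact hint.sub (h.isIntegral_eps_sub hb)

end Final

end Fermat.Agent.P3G.Cover.Idempotent
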