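/-
P3-G block (G-C), file 3: **no split cyclic cover over a reducible reduced special fibre**.

Semilocal version of `Fermat/Agent/N4/Cover/Main.lean`.  `O` a discrete valuation ring with uniformiser
`π`, fraction field `K₀` of characteristic `0`; `F₀` a finite extension of `K₀(j)`; the two charts
`R₊ = chartAlg O F₀ {j}`, `R₋ = chartAlg O F₀ {j⁻¹}`; `W ⊆ F₀` a common semilocal Gauss ring of the two
charts (in the application: the intersection of the Gauss valuation rings of the vertical components;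
`IsSemiGaussRing W π` = "`π W ⊆ rad W`, `R± ∩ π W = π R±`", i.e. the special fibre of `R±` is reduced and
embeds into `W / π W`).  NO hypothesis on the special fibre beyond that: it may be reducible and nodal.

`F' = F₀(t)`, `t ^ p = f`, a cyclic cover of prime degree `p ∈ Oˣ` (with `ζ_p ∈ O`) in which `K₀` is
algebraically closed.  If

* (vertical) `g` is a unit of `W` with `f / g ^ p ≡ 1` modulo `π W`, and
* (local roots) at every maximal ideal `𝔫 ∋ π` of `R₊` and of `R₋` there is `η ∈ F₀ˣ` with `f / η ^ p` a unit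
  at `𝔫`, and `c ∉ 𝔫` with `c (η ^ (-k) - g ^ (-k)) ∈ π W` for all `k`
  (e.g. `c = 1` if `η ≡ g` modulo `π W`: `no_split_cover_of_strong`),

then we get a contradiction: such a cover cannot be irreducible.
-/
import Mathlib
import Fermat.Agent.N4.Chart
import Fermat.Agent.N4.IntClosure
import Fermat.Agent.N4.IntClosureCech
import Fermat.Agent.N4.Cover.Main
import Fermat.Agent.P3G.Cover.Idempotent

set_option autoImplicit false

open Polynomial IntermediateField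

namespace Fermat.Agent.P3G.Cover.Main

open Fermat.Agent.N4.Chart Fermat.Agent.N4.IntClosure Fermat.Agent.N4.IntClosureCech
  Fermat.Agent.P3G.Cover.Lift Fermat.Agent.P3G.Cover.Idempotent
open Fermat.Agent.N4.Cover.Main (isFractionRing_chartAlg isIntegrallyClosed_chartAlg
  mem_chartAlg_of_isIntegral isIntegral_of_mem_chartAlg isIntegral_subring_of_mem_chartAlg
  finiteDimensional_adjoin_image adjoin_inv_eq mem_span_iff)

universe u

section Chart

variable {O K₀ : Type*} [CommRing O] [IsDomain O] [IsDiscreteValuationRing O]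
  [Field K₀] [CharZero K₀] [Algebra O K₀] [IsFractionRing O K₀]
variable {F₀ : Type u} [Field F₀] [Algebra K₀ F₀] [Algebra O F₀] [IsScalarTower O K₀ F₀]
variable {F' : Type*} [Field F'] [Algebra F₀ F'] [Algebra O F'] [IsScalarTower O F₀ F']

/-- **The idempotent on one chart** (semilocal version; local roots as a hypothesis). -/
theorem exists_idempotent (s : F₀) (hs : Transcendental K₀ s) [FiniteDimensional K₀⟮s⟯ F₀]
    {π : O}
    (W : Subring F₀) [IsIntegrallyClosed W] [IsFractionRing W F₀]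
    (hW : IsSemiGaussRing W (algebraMap O (chartAlg O F₀ {s}) π))
    {p : ℕ} (hp : p.Prime) (hpO : IsUnit ((p : ℕ) : O)) {ζ : O} (hζ : IsPrimitiveRoot ζ p)
    {f g : F₀} (hf : f ≠ 0) {t : F'} (ht : t ^ p = algebraMap F₀ F' f) (htop : F₀⟮t⟯ = ⊤)
    (hirr : Irreducible (X ^ p - C f : F₀[X]))
    (hg0 : g ≠ 0) (hg : g ∈ W) (hgi : g⁻¹ ∈ W)
    (hτ : ∃ w₀ ∈ W, (g⁻¹) ^ p * f - 1 = algebraMap O F₀ π * w₀)
    (hloc : ∀ 𝔫 : Ideal (chartAlg O F₀ {s}), 𝔫.IsMaximal →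
      algebraMap O (chartAlg O F₀ {s}) π ∈ 𝔫 → ∃ η : F₀, η ≠ 0 ∧
      (∃ a r : chartAlg O F₀ {s}, a ∉ 𝔫 ∧ r ∉ 𝔫 ∧
        f * algebraMap (chartAlg O F₀ {s}) F₀ a = η ^ p * algebraMap (chartAlg O F₀ {s}) F₀ r) ∧
      ∃ c : chartAlg O F₀ {s}, c ∉ 𝔫 ∧ ∀ k : ℕ, ∃ w ∈ W,
        algebraMap (chartAlg O F₀ {s}) F₀ c * ((η⁻¹) ^ k - (g⁻¹) ^ k) = algebraMap O F₀ π * w) :
    (∀ z : F', IsIntegral (chartAlg O F₀ {s}) z →
        IsIntegral W (algebraMap F₀ F' (algebraMap O F₀ π)⁻¹ * z) →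
        IsIntegral (chartAlg O F₀ {s}) (algebraMap F₀ F' (algebraMap O F₀ π)⁻¹ * z)) ∧
    ∃ ε : F', IsIntegral (chartAlg O F₀ {s}) ε ∧
      IsIntegral (chartAlg O F₀ {s}) (algebraMap F₀ F' (algebraMap O F₀ π)⁻¹ * (ε ^ 2 - ε)) ∧
      IsIntegral W (algebraMap F₀ F' (algebraMap O F₀ π)⁻¹ * (ε - eModel p g t)) ∧
      ¬ IsIntegral W (algebraMap F₀ F' (algebraMap O F₀ π)⁻¹ * ε) ∧
      ¬ IsIntegral W (algebraMap F₀ F' (algebraMap O F₀ π)⁻¹ * (ε - 1)) := by
  set R := chartAlg O F₀ {s} with hR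
  set ϖ : R := algebraMap O R π with hϖ
  haveI : IsFractionRing R F₀ := isFractionRing_chartAlg (O := O) (K₀ := K₀) s hs
  haveI : IsIntegrallyClosed R := isIntegrallyClosed_chartAlg (O := O) (K₀ := K₀) s hs
  have hinj : Function.Injective (algebraMap R F₀) := IsFractionRing.injective R F₀
  have hinjO : Function.Injective (algebraMap O F₀) := by
    rw [IsScalarTower.algebraMap_eq O K₀ F₀]
    exact (algebraMap K₀ F₀).injective.comp (IsFractionRing.injective O K₀)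
  have hinjOR : Function.Injective (algebraMap O R) := by
    intro a b hab
    exact hinjO (congrArg (algebraMap R F₀) hab)
  have hϖF : algebraMap R F₀ ϖ = algebraMap O F₀ π := rfl
  haveI : CharZero F₀ := charZero_of_injective_algebraMap (algebraMap K₀ F₀).injective
  have hp0 : ((p : ℕ) : F₀) ≠ 0 := Nat.cast_ne_zero.2 hp.ne_zero
  -- `p⁻¹ ∈ W`
  obtain ⟨u, hu⟩ := hpO
  have hpi : ((p : ℕ) : F₀)⁻¹ ∈ W := by
    have h1 : algebraMap O F₀ ((u⁻¹ : Oˣ) : O) = ((p : ℕ) : F₀)⁻¹ := by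
      have h2 : algebraMap O F₀ ((u⁻¹ : Oˣ) : O) * ((p : ℕ) : F₀) = 1 := by
        rw [← map_natCast (algebraMap O F₀), ← hu, ← map_mul, Units.inv_mul, map_one]
      exact eq_inv_of_mul_eq_one_left h2
    rw [← h1]
    exact hW.le (algebraMap O R ((u⁻¹ : Oˣ) : O))
  have hpR : IsUnit ((p : ℕ) : R) := by
    have := (u.isUnit.map (algebraMap O R))
    rwa [hu, map_natCast] at this
  have hζR : IsPrimitiveRoot (algebraMap O R ζ) p := hζ.map_of_injective hinjOR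
  have hpW : IsUnit ((p : ℕ) : W) := by
    refine IsUnit.of_mul_eq_one (⟨_, hpi⟩ : W) (Subtype.ext ?_)
    show ((p : ℕ) : F₀) * ((p : ℕ) : F₀)⁻¹ = 1
    exact mul_inv_cancel₀ hp0
  have hζW : IsPrimitiveRoot (⟨algebraMap O F₀ ζ, hW.le (algebraMap O R ζ)⟩ : W) p := by
    refine IsPrimitiveRoot.of_map_of_injective (f := W.subtype) ?_ Subtype.val_injective
    exact hζ.map_of_injective hinjO
  have hdata : IdemData W ϖ p f g t := ⟨hW, hp, ht, hg0, hf, hg, hgi, hτ, hpi, hp0⟩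
  choose b hb1 hb2 using fun k : ℕ =>
    exists_lift hinj hW hp.pos ht hdata.hgi hloc k
  have hlift : LiftData W ϖ g t b := ⟨hb1, hb2⟩
  refine ⟨fun z hz hzW => ?_, eps p b t, hdata.isIntegral_eps hlift hpR, ?_, ?_, ?_, ?_⟩
  · rw [← hϖF] at hzW ⊢
    exact claimB hp hpR hζR hpW hζW ht htop hirr hW hz hzW
  · rw [← hϖF]
    exact hdata.isIntegral_eps_sq hlift hpR hζR hpW hζW htop hirr
  · rw [← hϖF]
    exact hdata.isIntegral_eps_sub hlift
  · rw [← hϖF]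
    exact hdata.not_isIntegral_eps hlift hpW hζW htop hirr
  · rw [← hϖF]
    exact hdata.not_isIntegral_eps_sub_one hlift hpW hζW htop hirr

end Chart

section Final

variable {O K₀ : Type*} [CommRing O] [IsDomain O] [IsDiscreteValuationRing O]
  [Field K₀] [CharZero K₀] [Algebra O K₀] [IsFractionRing O K₀]
variable {F₀ : Type u} [Field F₀] [Algebra K₀ F₀] [Algebra O F₀] [IsScalarTower O K₀ F₀]
variable {F' : Type*} [Field F'] [Algebra F₀ F'] [Algebra K₀ F'] [Algebra O F']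
  [IsScalarTower K₀ F₀ F'] [IsScalarTower O K₀ F'] [IsScalarTower O F₀ F']

/-- **No split cyclic cover, reducible reduced special fibre.** -/
theorem no_split_cover (j : F₀) (hj : Transcendental K₀ j) [FiniteDimensional K₀⟮j⟯ F₀]
    {π : O} (hπ : Irreducible π)
    (W : Subring F₀) [IsIntegrallyClosed W] [IsFractionRing W F₀]
    (hWp : IsSemiGaussRing W (algebraMap O (chartAlg O F₀ {j}) π))
    (hWm : IsSemiGaussRing W (algebraMap O (chartAlg O F₀ {j⁻¹}) π))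
    {p : ℕ} (hp : p.Prime) (hpO : IsUnit ((p : ℕ) : O)) {ζ : O} (hζ : IsPrimitiveRoot ζ p)
    {f g : F₀} (hf : f ≠ 0) {t : F'} (ht : t ^ p = algebraMap F₀ F' f) (htop : F₀⟮t⟯ = ⊤)
    (hirr : Irreducible (X ^ p - C f : F₀[X]))
    (halg : ∀ x : F', IsAlgebraic K₀ x → x ∈ (algebraMap K₀ F').range)
    (hg0 : g ≠ 0) (hg : g ∈ W) (hgi : g⁻¹ ∈ W)
    (hτ : ∃ w₀ ∈ W, (g⁻¹) ^ p * f - 1 = algebraMap O F₀ π * w₀)
    (hlocp : ∀ 𝔫 : Ideal (chartAlg O F₀ {j}), 𝔫.IsMaximal →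
      algebraMap O (chartAlg O F₀ {j}) π ∈ 𝔫 → ∃ η : F₀, η ≠ 0 ∧
      (∃ a r : chartAlg O F₀ {j}, a ∉ 𝔫 ∧ r ∉ 𝔫 ∧
        f * algebraMap (chartAlg O F₀ {j}) F₀ a = η ^ p * algebraMap (chartAlg O F₀ {j}) F₀ r) ∧
      ∃ c : chartAlg O F₀ {j}, c ∉ 𝔫 ∧ ∀ k : ℕ, ∃ w ∈ W,
        algebraMap (chartAlg O F₀ {j}) F₀ c * ((η⁻¹) ^ k - (g⁻¹) ^ k) = algebraMap O F₀ π * w)
    (hlocm : ∀ 𝔫 : Ideal (chartAlg O F₀ {j⁻¹}), 𝔫.IsMaximal →
      algebraMap O (chartAlg O F₀ {j⁻¹}) π ∈ 𝔫 → ∃ η : F₀, η ≠ 0 ∧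
      (∃ a r : chartAlg O F₀ {j⁻¹}, a ∉ 𝔫 ∧ r ∉ 𝔫 ∧
        f * algebraMap (chartAlg O F₀ {j⁻¹}) F₀ a =
          η ^ p * algebraMap (chartAlg O F₀ {j⁻¹}) F₀ r) ∧
      ∃ c : chartAlg O F₀ {j⁻¹}, c ∉ 𝔫 ∧ ∀ k : ℕ, ∃ w ∈ W,
        algebraMap (chartAlg O F₀ {j⁻¹}) F₀ c * ((η⁻¹) ^ k - (g⁻¹) ^ k) =
          algebraMap O F₀ π * w) : False := by
  classical
  have hj0 : j ≠ 0 := fun h0 => hj (h0 ▸ isAlgebraic_zero)
  have hjinv : Transcendental K₀ j⁻¹ := fun h => hj (by simpa using h.inv)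
  haveI : FiniteDimensional K₀⟮j⁻¹⟯ F₀ := by rw [adjoin_inv_eq]; infer_instance
  set Rp := chartAlg O F₀ {j} with hRp
  set Rm := chartAlg O F₀ {j⁻¹} with hRm
  have hinjO : Function.Injective (algebraMap O F₀) := by
    rw [IsScalarTower.algebraMap_eq O K₀ F₀]
    exact (algebraMap K₀ F₀).injective.comp (IsFractionRing.injective O K₀)
  have hπF : algebraMap O F₀ π ≠ 0 := fun h0 => hπ.ne_zero (hinjO (by rw [h0, map_zero]))
  -- the two idempotents
  obtain ⟨hclaim, εp, hεp, hεp2, hεpe, hεp0, hεp1⟩ :=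
    exists_idempotent (K₀ := K₀) (F' := F') j hj W hWp hp hpO hζ hf ht htop hirr hg0 hg hgi hτ
      hlocp
  obtain ⟨-, εm, hεm, hεm2, hεme, hεm0, hεm1⟩ :=
    exists_idempotent (K₀ := K₀) (F' := F') j⁻¹ hjinv W hWm hp hpO hζ hf ht htop hirr hg0 hg hgi
      hτ hlocm
  -- the charts of `F'`
  set j' : F' := algebraMap F₀ F' j with hj'
  have hj'0 : j' ≠ 0 := by rw [hj', Ne, map_eq_zero]; exact hj0
  have himg : algebraMap F₀ F' '' ({j} : Set F₀) = {j'} := Set.image_singleton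
  have himg' : algebraMap F₀ F' '' ({j⁻¹} : Set F₀) = {j'⁻¹} := by
    rw [Set.image_singleton, map_inv₀]
  have hj't : Transcendental K₀ j' := by
    intro h
    apply hj
    have : IsAlgebraic K₀ (IsScalarTower.toAlgHom K₀ F₀ F' j) := h
    exact (isAlgebraic_algHom_iff _ (IsScalarTower.toAlgHom K₀ F₀ F').injective).1 this
  haveI : FiniteDimensional F₀ F' := by
    have hfr := Fermat.Agent.N4.Cover.KummerClosure.finrank_eq hp ht htop hirr
    exact Module.finite_of_finrank_pos (by rw [hfr]; exact hp.pos)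
  haveI : FiniteDimensional K₀⟮j'⟯ F' := finiteDimensional_adjoin_image (K₀ := K₀) j
  have hpmem : ∀ {x : F'}, IsIntegral Rp x → x ∈ chartAlg O F' {j'} := fun hx => by
    have := mem_chartAlg_of_isIntegral (O := O) ({j} : Set F₀) hx
    rwa [himg] at this
  have hmmem : ∀ {x : F'}, IsIntegral Rm x → x ∈ chartAlg O F' {j'⁻¹} := fun hx => by
    have := mem_chartAlg_of_isIntegral (O := O) ({j⁻¹} : Set F₀) hx
    rwa [himg'] at this
  have hpW : ∀ {x : F'}, x ∈ chartAlg O F' {j'} → IsIntegral W x := fun hx => by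
    rw [← himg] at hx
    exact isIntegral_subring_of_mem_chartAlg (O := O) ({j} : Set F₀) W
      (fun b hb => hWp.le ⟨b, adjoin_le_chartAlg _ hb⟩) hx
  let ep : chartAlg O F' {j'} := ⟨εp, hpmem hεp⟩
  let em : chartAlg O F' {j'⁻¹} := ⟨εm, hmmem hεm⟩
  set πi : F' := algebraMap F₀ F' (algebraMap O F₀ π)⁻¹ with hπi
  have hne : (1 : chartAlg O F' {j'}) ∉ Ideal.span {algebraMap O (chartAlg O F' {j'}) π} := by
    rw [mem_span_iff hπF]
    intro h
    have h1 : IsIntegral W (algebraMap F₀ F' (algebraMap O F₀ π)⁻¹) := by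
      have := hpW h
      rwa [OneMemClass.coe_one, mul_one] at this
    have h2 : IsIntegral W (algebraMap O F₀ π)⁻¹ :=
      (isIntegral_algebraMap_iff (algebraMap F₀ F').injective).1 h1
    obtain ⟨w, hw⟩ := IsIntegrallyClosed.algebraMap_eq_of_integral h2
    apply hWp.not_unit
    have : algebraMap Rp F₀ (algebraMap O Rp π) = algebraMap O F₀ π := rfl
    rw [this, ← hw]
    exact w.2
  have hep : ep ^ 2 - ep ∈ Ideal.span {algebraMap O (chartAlg O F' {j'}) π} := by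
    rw [mem_span_iff hπF]
    exact hpmem hεp2
  have hem : em ^ 2 - em ∈ Ideal.span {algebraMap O (chartAlg O F' {j'⁻¹}) π} := by
    rw [mem_span_iff hπF]
    exact hmmem hεm2
  have hcompat : chartIncl (O := O) (Fermat.Agent.N4.ChartFinite.subset_pair_left j') ep -
      chartIncl (O := O) (Fermat.Agent.N4.ChartFinite.subset_pair_right j') em ∈
        Ideal.span {algebraMap O (chartAlg O F' {j', j'⁻¹}) π} := by
    rw [mem_span_iff hπF]
    show πi * (εp - εm) ∈ chartAlg O F' {j', j'⁻¹}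
    -- `z = εp - εm`, `πi z` integral over `W`
    have hzW : IsIntegral W (πi * (εp - εm)) := by
      have : πi * (εp - εm) = πi * (εp - eModel p g t) - πi * (εm - eModel p g t) := by ring
      rw [this]
      exact hεpe.sub hεme
    have hz0 : εp - εm ∈ chartAlg O F' {j', j'⁻¹} :=
      sub_mem (chartAlg_mono (Fermat.Agent.N4.ChartFinite.subset_pair_left j') (hpmem hεp))
        (chartAlg_mono (Fermat.Agent.N4.ChartFinite.subset_pair_right j') (hmmem hεm))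
    have hz0' : εp - εm ∈ chartAlg O F' (insert j'⁻¹ {j'}) := by
      rwa [Set.pair_comm] at hz0
    obtain ⟨n, hn⟩ := exists_pow_mul_mem_chartAlg (O := O) (Set.mem_singleton j') hj'0 hz0'
    have h1 : IsIntegral Rp (j' ^ n * (εp - εm)) := by
      rw [← himg] at hn
      exact isIntegral_of_mem_chartAlg (O := O) ({j} : Set F₀) hn
    have hjW : IsIntegral W j' :=
      isIntegral_algebraMap_of_mem (hWp.le ⟨j, subset_chartAlg _ (Set.mem_singleton j)⟩)
    have h2 : IsIntegral W (πi * (j' ^ n * (εp - εm))) := by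
      have : πi * (j' ^ n * (εp - εm)) = j' ^ n * (πi * (εp - εm)) := by ring
      rw [this]
      exact (hjW.pow n).mul hzW
    have h3 := hpmem (hclaim _ h1 h2)
    have h4 : πi * (εp - εm) = (j'⁻¹) ^ n * (πi * (j' ^ n * (εp - εm))) := by
      have h5 : (j'⁻¹) ^ n * j' ^ n = 1 := by
        rw [← mul_pow, inv_mul_cancel₀ hj'0, one_pow]
      calc πi * (εp - εm) = ((j'⁻¹) ^ n * j' ^ n) * (πi * (εp - εm)) := by rw [h5, one_mul]
        _ = (j'⁻¹) ^ n * (πi * (j' ^ n * (εp - εm))) := by ring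
    rw [h4]
    exact mul_mem (pow_mem (subset_chartAlg _ (by simp)) n)
      (chartAlg_mono (Fermat.Agent.N4.ChartFinite.subset_pair_left j') h3)
  rcases idempotent_mod_eq_zero_or_one_chart (O := O) (K := K₀) j' hj't halg hπ hne ep em hep hem
    hcompat with ⟨h0, -⟩ | ⟨h1, -⟩
  · rw [mem_span_iff hπF] at h0
    exact hεp0 (hpW h0)
  · rw [mem_span_iff hπF] at h1
    exact hεp1 (hpW h1)

/-- **No split cyclic cover**, strong form of the local hypothesis: the local roots are congruent to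
`g` modulo `π W` (at ALL vertical components). -/
theorem no_split_cover_of_strong (j : F₀) (hj : Transcendental K₀ j) [FiniteDimensional K₀⟮j⟯ F₀]
    {π : O} (hπ : Irreducible π)
    (W : Subring F₀) [IsIntegrallyClosed W] [IsFractionRing W F₀]
    (hWp : IsSemiGaussRing W (algebraMap O (chartAlg O F₀ {j}) π))
    (hWm : IsSemiGaussRing W (algebraMap O (chartAlg O F₀ {j⁻¹}) π))
    {p : ℕ} (hp : p.Prime) (hpO : IsUnit ((p : ℕ) : O)) {ζ : O} (hζ : IsPrimitiveRoot ζ p)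
    {f g : F₀} (hf : f ≠ 0) {t : F'} (ht : t ^ p = algebraMap F₀ F' f) (htop : F₀⟮t⟯ = ⊤)
    (hirr : Irreducible (X ^ p - C f : F₀[X]))
    (halg : ∀ x : F', IsAlgebraic K₀ x → x ∈ (algebraMap K₀ F').range)
    (hg0 : g ≠ 0) (hg : g ∈ W) (hgi : g⁻¹ ∈ W)
    (hτ : ∃ w₀ ∈ W, (g⁻¹) ^ p * f - 1 = algebraMap O F₀ π * w₀)
    (hlocp : ∀ 𝔫 : Ideal (chartAlg O F₀ {j}), 𝔫.IsMaximal →
      algebraMap O (chartAlg O F₀ {j}) π ∈ 𝔫 → ∃ η : F₀, η ≠ 0 ∧
      (∃ a r : chartAlg O F₀ {j}, a ∉ 𝔫 ∧ r ∉ 𝔫 ∧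
        f * algebraMap (chartAlg O F₀ {j}) F₀ a = η ^ p * algebraMap (chartAlg O F₀ {j}) F₀ r) ∧
      ∃ w ∈ W, η - g = algebraMap O F₀ π * w)
    (hlocm : ∀ 𝔫 : Ideal (chartAlg O F₀ {j⁻¹}), 𝔫.IsMaximal →
      algebraMap O (chartAlg O F₀ {j⁻¹}) π ∈ 𝔫 → ∃ η : F₀, η ≠ 0 ∧
      (∃ a r : chartAlg O F₀ {j⁻¹}, a ∉ 𝔫 ∧ r ∉ 𝔫 ∧
        f * algebraMap (chartAlg O F₀ {j⁻¹}) F₀ a =
          η ^ p * algebraMap (chartAlg O F₀ {j⁻¹}) F₀ r) ∧
      ∃ w ∈ W, η - g = algebraMap O F₀ π * w) : False := by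
  refine no_split_cover (K₀ := K₀) (F' := F') j hj hπ W hWp hWm hp hpO hζ hf ht htop hirr halg hg0 hg
    hgi hτ ?_ ?_
  · intro 𝔫 h𝔫 hπ𝔫
    obtain ⟨η, hη0, hunit, hηg⟩ := hlocp 𝔫 h𝔫 hπ𝔫
    refine ⟨η, hη0, hunit, 1, fun h1 => h𝔫.ne_top ((Ideal.eq_top_iff_one _).2 h1), fun k => ?_⟩
    exact hWp.weak_of_strong hg0 hgi hη0 hηg k
  · intro 𝔫 h𝔫 hπ𝔫
    obtain ⟨η, hη0, hunit, hηg⟩ := hlocm 𝔫 h𝔫 hπ𝔫
    refine ⟨η, hη0, hunit, 1, fun h1 => h𝔫.ne_top ((Ideal.eq_top_iff_one _).2 h1), fun k => ?_⟩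
    exact hWm.weak_of_strong hg0 hgi hη0 hηg k

end Final

end Fermat.Agent.P3G.Cover.Main
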