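/-
P3-G block (G-C), file 4: the standard source of semilocal Gauss rings.

If `V i` (`i : ι`, `ι` nonempty, arbitrary) are valuation subrings of `F₀` containing the domain `R`
(with `Frac R = F₀`), `ϖ ∈ R` is a nonzero nonunit of every `V i`, and the special fibre of `R` embeds
into the product of the residue rings (`hsat`: an element `r ∈ R` with `r / ϖ ∈ V i` for all `i` is
divisible by `ϖ` in `R`), then `W := ⨅ i, V i` is a semilocal Gauss ring for `(R, ϖ)`, integrally
closed with fraction field `F₀`.

In the application `ι = Fin 2` and `V 0`, `V 1` are the two Gauss valuation rings of the function field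
of `X₀(Mℓ)` over a level; `hsat` is the injectivity of the pair of fibre embeddings on `R / ϖ R`.
-/
import Mathlib
import Fermat.Agent.P3G.Cover.Lift

set_option autoImplicit false

namespace Fermat.Agent.P3G.Cover.OfValuations

open Fermat.Agent.P3G.Cover.Lift

variable {R F₀ : Type*} [CommRing R] [Field F₀] [Algebra R F₀]
variable {ι : Type*}

/-- The intersection of a family of valuation subrings, as a subring. -/
def iInfSubring (V : ι → ValuationSubring F₀) : Subring F₀ := ⨅ i, (V i).toSubring

theorem mem_iInfSubring (V : ι → ValuationSubring F₀) (x : F₀) :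
    x ∈ iInfSubring V ↔ ∀ i, x ∈ V i := by
  unfold iInfSubring
  rw [Subring.mem_iInf]
  rfl

theorem inv_one_add_mem (A : ValuationSubring F₀) {x w : F₀} (hx : x ∈ A.nonunits) (hw : w ∈ A) :
    (1 + x * w)⁻¹ ∈ A := by
  have h1 : A.valuation (x * w) < 1 := by
    rw [map_mul]
    have h2 : A.valuation x < 1 := A.mem_nonunits_iff.1 hx
    have h3 : A.valuation w ≤ 1 := (A.valuation_le_one_iff w).2 hw
    exact mul_lt_one_of_lt_of_le h2 h3
  have h4 : A.valuation (1 + x * w) = 1 := Valuation.map_one_add_of_lt _ h1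
  rw [← A.valuation_le_one_iff, map_inv₀, h4, inv_one]

theorem inv_notMem (A : ValuationSubring F₀) {x : F₀} (hx : x ∈ A.nonunits) (hx0 : x ≠ 0) :
    x⁻¹ ∉ A := by
  intro h
  have h2 : A.valuation x < 1 := A.mem_nonunits_iff.1 hx
  have h3 : A.valuation x⁻¹ ≤ 1 := (A.valuation_le_one_iff _).2 h
  rw [map_inv₀] at h3
  have hv0 : A.valuation x ≠ 0 := by
    intro h0
    exact hx0 ((map_eq_zero _).1 h0)
  have : 1 ≤ A.valuation x := (inv_le_one₀ (zero_lt_iff.2 hv0)).1 h3
  exact absurd h2 (not_lt.2 this)

/-- **Semilocal Gauss ring from a family of valuation rings.** -/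
theorem isSemiGaussRing_iInf [Nonempty ι] (V : ι → ValuationSubring F₀) (ϖ : R)
    (hle : ∀ i (r : R), algebraMap R F₀ r ∈ V i)
    (hϖ : ∀ i, algebraMap R F₀ ϖ ∈ (V i).nonunits) (hϖ0 : algebraMap R F₀ ϖ ≠ 0)
    (hsat : ∀ r : R, (∀ i, algebraMap R F₀ r * (algebraMap R F₀ ϖ)⁻¹ ∈ V i) → ϖ ∣ r) :
    IsSemiGaussRing (iInfSubring V) ϖ := by
  refine ⟨fun r => (mem_iInfSubring V _).2 fun i => hle i r, fun w hw => ?_, fun r hr => ?_, ?_⟩
  · rw [mem_iInfSubring] at hw ⊢
    exact fun i => inv_one_add_mem (V i) (hϖ i) (hw i)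
  · obtain ⟨w, hw, hrw⟩ := hr
    rw [mem_iInfSubring] at hw
    apply hsat r
    intro i
    have : algebraMap R F₀ r * (algebraMap R F₀ ϖ)⁻¹ = w := by
      rw [hrw]; field_simp
    rw [this]
    exact hw i
  · intro h
    rw [mem_iInfSubring] at h
    obtain ⟨i⟩ := ‹Nonempty ι›
    exact inv_notMem (V i) (hϖ i) hϖ0 (h i)

/-- The intersection of valuation subrings is integrally closed in `F₀`; if it contains a subring with
fraction field `F₀`, its fraction field is `F₀` and it is an integrally closed domain. -/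
theorem isIntegral_mem_iInfSubring (V : ι → ValuationSubring F₀) {x : F₀}
    (hx : IsIntegral (iInfSubring V) x) : x ∈ iInfSubring V := by
  rw [mem_iInfSubring]
  intro i
  -- `x` is integral over `V i`
  have hxi : IsIntegral (V i) x := by
    let φ : iInfSubring V →+* V i :=
      { toFun := fun a => ⟨a, (mem_iInfSubring V _).1 a.2 i⟩
        map_one' := rfl
        map_mul' := fun _ _ => rfl
        map_zero' := rfl
        map_add' := fun _ _ => rfl }
    exact hx.map_of_comp_eq φ (RingHom.id F₀) (by ext a; rfl)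
  obtain ⟨y, hy⟩ := IsIntegrallyClosed.algebraMap_eq_of_integral hxi
  rw [← hy]
  exact y.2

theorem isFractionRing_iInfSubring [IsDomain R] [IsFractionRing R F₀] (V : ι → ValuationSubring F₀)
    (hle : ∀ i (r : R), algebraMap R F₀ r ∈ V i) : IsFractionRing (iInfSubring V) F₀ := by
  haveI : FaithfulSMul (iInfSubring V) F₀ :=
    (faithfulSMul_iff_algebraMap_injective _ _).mpr Subtype.val_injective
  refine IsFractionRing.of_field _ _ fun z => ?_
  obtain ⟨a, b, hb, hab⟩ := IsFractionRing.div_surjective (A := R) z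
  have hb0 : algebraMap R F₀ b ≠ 0 := by
    intro h0
    have : b = 0 := IsFractionRing.injective R F₀ (by rw [h0, map_zero])
    exact (nonZeroDivisors.ne_zero hb) this
  refine ⟨⟨algebraMap R F₀ a, (mem_iInfSubring V _).2 fun i => hle i a⟩,
    ⟨algebraMap R F₀ b, (mem_iInfSubring V _).2 fun i => hle i b⟩, ?_⟩
  show z = algebraMap R F₀ a / algebraMap R F₀ b
  exact hab.symm

theorem isIntegrallyClosed_iInfSubring [IsDomain R] [IsFractionRing R F₀]
    (V : ι → ValuationSubring F₀) (hle : ∀ i (r : R), algebraMap R F₀ r ∈ V i) :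
    IsIntegrallyClosed (iInfSubring V) := by
  haveI := isFractionRing_iInfSubring (R := R) V hle
  refine (isIntegrallyClosed_iff F₀).2 fun {x} hx => ?_
  exact ⟨⟨x, isIntegral_mem_iInfSubring V hx⟩, rfl⟩

end Fermat.Agent.P3G.Cover.OfValuations
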