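/-
P3-G block (G-C), file 5: **connectedness of the special fibre** of the two-chart model, in the
language of semilocal Gauss rings, and **existence of a crossing point**.

Setting of `Fermat/Agent/P3G/Cover/Main.lean`: `O` a discrete valuation ring with uniformiser `π`,
fraction field `K₀` of characteristic `0`, `F₀` a finite extension of `K₀(j)` in which `K₀` is
algebraically closed, charts `R₊ = chartAlg O F₀ {j}`, `R₋ = chartAlg O F₀ {j⁻¹}`, and a common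
semilocal Gauss ring `W` (`IsSemiGaussRing W π` for both charts).

* `idempotent_trichotomy` : an idempotent of `W / π W` which is represented by an element of `R₊` and by
  an element of `R₋` is `0` or `1` (formal functions, `N4/IntClosureCech`).
* `exists_crossing` : if `W = V₁ ∩ V₂` for two valuation rings in which `π` is a uniformiser, and
  `𝔭ᵢ`, `𝔮ᵢ` are the centres of `Vᵢ` on `R₊`, `R₋`, then `𝔭₁ + 𝔭₂ ≠ R₊` or `𝔮₁ + 𝔮₂ ≠ R₋`: the two
  components of the special fibre meet.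
* `residues_agree` : consequently a family of local functions along the special fibre which is congruent
  to a constant `a₁` at `V₁` and to a constant `a₂` at `V₂` has `a₁ ≡ a₂` modulo `π`.
-/
import Mathlib
import Fermat.Agent.N4.Chart
import Fermat.Agent.N4.IntClosure
import Fermat.Agent.N4.IntClosureCech
import Fermat.Agent.P3G.Cover.Main
import Fermat.Agent.P3G.Cover.OfValuations

set_option autoImplicit false

open Polynomial IntermediateField

namespace Fermat.Agent.P3G.Cover.Connected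

open Fermat.Agent.N4.Chart Fermat.Agent.N4.IntClosure Fermat.Agent.N4.IntClosureCech
  Fermat.Agent.P3G.Cover.Lift

universe u

variable {O K₀ : Type*} [CommRing O] [IsDomain O] [IsDiscreteValuationRing O]
  [Field K₀] [CharZero K₀] [Algebra O K₀] [IsFractionRing O K₀]
variable {F₀ : Type u} [Field F₀] [Algebra K₀ F₀] [Algebra O F₀] [IsScalarTower O K₀ F₀]

omit [IsDomain O] [IsDiscreteValuationRing O] [CharZero K₀] [IsFractionRing O K₀]
  [IsScalarTower O K₀ F₀] [Algebra K₀ F₀] [Field K₀] [Algebra O K₀] in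
/-- Membership in `π R` for a chart `R` of `F₀`. -/
theorem mem_span_iff' {π : O} (hπF : algebraMap O F₀ π ≠ 0) {S : Set F₀} (x : chartAlg O F₀ S) :
    x ∈ Ideal.span {algebraMap O (chartAlg O F₀ S) π} ↔
      (algebraMap O F₀ π)⁻¹ * (x : F₀) ∈ chartAlg O F₀ S := by
  have hcoe : ((algebraMap O (chartAlg O F₀ S) π : chartAlg O F₀ S) : F₀) = algebraMap O F₀ π := rfl
  rw [Ideal.mem_span_singleton']
  constructor
  · rintro ⟨a, rfl⟩
    have : (algebraMap O F₀ π)⁻¹ *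
        ((a * algebraMap O (chartAlg O F₀ S) π : chartAlg O F₀ S) : F₀) = (a : F₀) := by
      rw [MulMemClass.coe_mul, hcoe]
      field_simp
    rw [this]
    exact a.2
  · intro h
    refine ⟨⟨_, h⟩, Subtype.ext ?_⟩
    rw [MulMemClass.coe_mul, hcoe]
    show (algebraMap O F₀ π)⁻¹ * (x : F₀) * algebraMap O F₀ π = x
    field_simp

/-- **Connectedness of the special fibre, semilocal Gauss form.**  An idempotent of `W / π W` which is
represented by an element of `R₊` and by an element of `R₋` is `0` or `1`. -/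
theorem idempotent_mod_eq_zero_or_one (j : F₀) (hj : Transcendental K₀ j)
    [FiniteDimensional K₀⟮j⟯ F₀] {π : O} (hπ : Irreducible π)
    (halg : ∀ x : F₀, IsAlgebraic K₀ x → x ∈ (algebraMap K₀ F₀).range)
    (W : Subring F₀)
    (hWp : IsSemiGaussRing W (algebraMap O (chartAlg O F₀ {j}) π))
    (hWm : IsSemiGaussRing W (algebraMap O (chartAlg O F₀ {j⁻¹}) π))
    (ep : chartAlg O F₀ {j}) (em : chartAlg O F₀ {j⁻¹})
    (hidem : ∃ w ∈ W, (ep : F₀) ^ 2 - ep = algebraMap O F₀ π * w)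
    (hcompat : ∃ w ∈ W, (ep : F₀) - em = algebraMap O F₀ π * w) :
    (∃ w ∈ W, (ep : F₀) = algebraMap O F₀ π * w) ∨
      (∃ w ∈ W, (ep : F₀) - 1 = algebraMap O F₀ π * w) := by
  classical
  have hj0 : j ≠ 0 := fun h0 => hj (h0 ▸ isAlgebraic_zero)
  have hinjO : Function.Injective (algebraMap O F₀) := by
    rw [IsScalarTower.algebraMap_eq O K₀ F₀]
    exact (algebraMap K₀ F₀).injective.comp (IsFractionRing.injective O K₀)
  have hπF : algebraMap O F₀ π ≠ 0 := fun h0 => hπ.ne_zero (hinjO (by rw [h0, map_zero]))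
  have hepW : (ep : F₀) ∈ W := hWp.le ep
  have hemW : (em : F₀) ∈ W := hWm.le em
  -- `1 ∉ π R₊`
  have hne : (1 : (chartAlg O F₀ {j})) ∉ Ideal.span {algebraMap O (chartAlg O F₀ {j}) π} := by
    rw [mem_span_iff' hπF]
    intro h
    apply hWp.not_unit
    have h1 : algebraMap (chartAlg O F₀ {j}) F₀ (algebraMap O (chartAlg O F₀ {j}) π) = algebraMap O F₀ π := rfl
    rw [h1]
    have h2 := hWp.le ⟨_, h⟩
    have h3 : algebraMap (chartAlg O F₀ {j}) F₀ ⟨_, h⟩ = (algebraMap O F₀ π)⁻¹ * ((1 : (chartAlg O F₀ {j})) : F₀) := rfl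
    rw [h3, OneMemClass.coe_one, mul_one] at h2
    exact h2
  -- idempotency on both charts
  have hep : ep ^ 2 - ep ∈ Ideal.span {algebraMap O (chartAlg O F₀ {j}) π} := by
    rw [Ideal.mem_span_singleton]
    obtain ⟨w₁, hw₁, h₁⟩ := hidem
    refine hWp.sat (ep ^ 2 - ep) ⟨w₁, hw₁, ?_⟩
    have e1 : algebraMap (chartAlg O F₀ {j}) F₀ (ep ^ 2 - ep) = (ep : F₀) ^ 2 - ep := by
      rw [map_sub, map_pow]; rfl
    have e2 : algebraMap (chartAlg O F₀ {j}) F₀ (algebraMap O (chartAlg O F₀ {j}) π) =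
        algebraMap O F₀ π := rfl
    rw [e1, e2, h₁]
  have hem : em ^ 2 - em ∈ Ideal.span {algebraMap O (chartAlg O F₀ {j⁻¹}) π} := by
    rw [Ideal.mem_span_singleton]
    refine hWm.sat (em ^ 2 - em) ?_
    obtain ⟨w₁, hw₁, h₁⟩ := hidem
    obtain ⟨w₂, hw₂, h₂⟩ := hcompat
    refine ⟨w₁ - w₂ * ((em : F₀) + ep - 1),
      W.sub_mem hw₁ (W.mul_mem hw₂ (W.sub_mem (W.add_mem hemW hepW) W.one_mem)), ?_⟩
    have e1 : algebraMap (chartAlg O F₀ {j⁻¹}) F₀ (em ^ 2 - em) = (em : F₀) ^ 2 - em := by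
      rw [map_sub, map_pow]; rfl
    have e2 : algebraMap (chartAlg O F₀ {j⁻¹}) F₀ (algebraMap O (chartAlg O F₀ {j⁻¹}) π) =
        algebraMap O F₀ π := rfl
    rw [e1, e2]
    linear_combination h₁ - ((em : F₀) + ep - 1) * h₂
  -- compatibility on the overlap
  have hcompat' : chartIncl (O := O) (Fermat.Agent.N4.ChartFinite.subset_pair_left j) ep -
      chartIncl (O := O) (Fermat.Agent.N4.ChartFinite.subset_pair_right j) em ∈
        Ideal.span {algebraMap O (chartAlg O F₀ {j, j⁻¹}) π} := by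
    rw [mem_span_iff' hπF, AddSubgroupClass.coe_sub, coe_chartIncl, coe_chartIncl]
    obtain ⟨w₂, hw₂, h₂⟩ := hcompat
    have hz0 : (ep : F₀) - em ∈ chartAlg O F₀ {j, j⁻¹} :=
      sub_mem (chartAlg_mono (Fermat.Agent.N4.ChartFinite.subset_pair_left j) ep.2)
        (chartAlg_mono (Fermat.Agent.N4.ChartFinite.subset_pair_right j) em.2)
    have hz0' : (ep : F₀) - em ∈ chartAlg O F₀ (insert j⁻¹ {j}) := by
      rwa [Set.pair_comm] at hz0
    obtain ⟨n, hn⟩ := exists_pow_mul_mem_chartAlg (O := O) (Set.mem_singleton j) hj0 hz0'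
    -- `j ^ n (ep - em) ∈ R₊ ∩ π W = π R₊`
    have hjW : j ∈ W := hWp.le ⟨j, subset_chartAlg _ (Set.mem_singleton j)⟩
    obtain ⟨r, hr⟩ := hWp.sat ⟨_, hn⟩ ⟨j ^ n * w₂, W.mul_mem (W.pow_mem hjW n) hw₂, by
      have e1 : algebraMap (chartAlg O F₀ {j}) F₀ ⟨_, hn⟩ = j ^ n * ((ep : F₀) - em) := rfl
      have e2 : algebraMap (chartAlg O F₀ {j}) F₀ (algebraMap O (chartAlg O F₀ {j}) π) =
          algebraMap O F₀ π := rfl
      rw [e1, e2, h₂]; ring⟩
    have hr' : j ^ n * ((ep : F₀) - em) = algebraMap O F₀ π * (r : F₀) := by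
      have h6 := congrArg (fun z : (chartAlg O F₀ {j}) => (z : F₀)) hr
      have h7 : ((algebraMap O (chartAlg O F₀ {j}) π * r : chartAlg O F₀ {j}) : F₀) =
          algebraMap O F₀ π * (r : F₀) := by
        rw [MulMemClass.coe_mul]; rfl
      exact h6.trans h7
    have h4 : (algebraMap O F₀ π)⁻¹ * ((ep : F₀) - em) = (j⁻¹) ^ n * (r : F₀) := by
      have h5 : (j⁻¹) ^ n * j ^ n = 1 := by
        rw [← mul_pow, inv_mul_cancel₀ hj0, one_pow]
      calc (algebraMap O F₀ π)⁻¹ * ((ep : F₀) - em)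
          = (algebraMap O F₀ π)⁻¹ * (((j⁻¹) ^ n * j ^ n) * ((ep : F₀) - em)) := by
            rw [h5, one_mul]
        _ = (algebraMap O F₀ π)⁻¹ * ((j⁻¹) ^ n * (j ^ n * ((ep : F₀) - em))) := by ring
        _ = (j⁻¹) ^ n * (r : F₀) := by rw [hr']; field_simp
    rw [h4]
    exact mul_mem (pow_mem (subset_chartAlg _ (by simp)) n)
      (chartAlg_mono (Fermat.Agent.N4.ChartFinite.subset_pair_left j) r.2)
  rcases idempotent_mod_eq_zero_or_one_chart (O := O) (K := K₀) j hj halg hπ hne ep em hep hem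
    hcompat' with ⟨h0, -⟩ | ⟨h1, -⟩
  · left
    rw [mem_span_iff' hπF] at h0
    refine ⟨_, hWp.le ⟨_, h0⟩, ?_⟩
    show (ep : F₀) = algebraMap O F₀ π * ((algebraMap O F₀ π)⁻¹ * (ep : F₀))
    field_simp
  · right
    rw [mem_span_iff' hπF] at h1
    refine ⟨_, hWp.le ⟨_, h1⟩, ?_⟩
    show (ep : F₀) - 1 = algebraMap O F₀ π * ((algebraMap O F₀ π)⁻¹ * ((ep - 1 : (chartAlg O F₀ {j})) : F₀))
    rw [AddSubgroupClass.coe_sub, OneMemClass.coe_one]
    field_simp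

omit [Algebra K₀ F₀] [Algebra O F₀] in
theorem mul_mem_nonunits (A : ValuationSubring F₀) {x y : F₀} (hx : x ∈ A.nonunits) (hy : y ∈ A) :
    x * y ∈ A.nonunits := by
  rw [A.mem_nonunits_iff] at hx ⊢
  rw [map_mul]
  exact mul_lt_one_of_lt_of_le hx ((A.valuation_le_one_iff y).2 hy)

omit [Algebra K₀ F₀] [Algebra O F₀] in
theorem one_notMem_nonunits (A : ValuationSubring F₀) : (1 : F₀) ∉ A.nonunits := by
  rw [A.mem_nonunits_iff, map_one]
  exact lt_irrefl _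

/-- **The two components of the special fibre meet** (algebraic form).  `W = V₁ ∩ V₂` for two valuation
rings of `F₀` in which `π` is a uniformiser.  Then it is impossible that the centres of `V₁`, `V₂` are
comaximal on BOTH charts. -/
theorem not_comaximal (j : F₀) (hj : Transcendental K₀ j)
    [FiniteDimensional K₀⟮j⟯ F₀] {π : O} (hπ : Irreducible π)
    (halg : ∀ x : F₀, IsAlgebraic K₀ x → x ∈ (algebraMap K₀ F₀).range)
    (W : Subring F₀)
    (hWp : IsSemiGaussRing W (algebraMap O (chartAlg O F₀ {j}) π))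
    (hWm : IsSemiGaussRing W (algebraMap O (chartAlg O F₀ {j⁻¹}) π))
    (V₁ V₂ : ValuationSubring F₀) (hW : ∀ x : F₀, x ∈ W ↔ x ∈ V₁ ∧ x ∈ V₂)
    (hπ₁ : algebraMap O F₀ π ∈ V₁.nonunits) (hπ₂ : algebraMap O F₀ π ∈ V₂.nonunits)
    (hu₁ : ∀ x ∈ V₁.nonunits, (algebraMap O F₀ π)⁻¹ * x ∈ V₁)
    (hu₂ : ∀ x ∈ V₂.nonunits, (algebraMap O F₀ π)⁻¹ * x ∈ V₂)
    (hp : ∃ a b : chartAlg O F₀ {j}, (a : F₀) ∈ V₁.nonunits ∧ (b : F₀) ∈ V₂.nonunits ∧ a + b = 1)
    (hm : ∃ a b : chartAlg O F₀ {j⁻¹}, (a : F₀) ∈ V₁.nonunits ∧ (b : F₀) ∈ V₂.nonunits ∧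
      a + b = 1) : False := by
  obtain ⟨ap, bp, hap, hbp, habp⟩ := hp
  obtain ⟨am, bm, ham, hbm, habm⟩ := hm
  have hinjO : Function.Injective (algebraMap O F₀) := by
    rw [IsScalarTower.algebraMap_eq O K₀ F₀]
    exact (algebraMap K₀ F₀).injective.comp (IsFractionRing.injective O K₀)
  have hπF : algebraMap O F₀ π ≠ 0 := fun h0 => hπ.ne_zero (hinjO (by rw [h0, map_zero]))
  have habp' : (ap : F₀) + bp = 1 := by
    have := congrArg (fun z : chartAlg O F₀ {j} => (z : F₀)) habp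
    simpa using this
  have habm' : (am : F₀) + bm = 1 := by
    have := congrArg (fun z : chartAlg O F₀ {j⁻¹} => (z : F₀)) habm
    simpa using this
  -- membership in `V₁`, `V₂` of chart elements
  have hV₁p : ∀ r : chartAlg O F₀ {j}, (r : F₀) ∈ V₁ := fun r => ((hW _).1 (hWp.le r)).1
  have hV₂p : ∀ r : chartAlg O F₀ {j}, (r : F₀) ∈ V₂ := fun r => ((hW _).1 (hWp.le r)).2
  have hV₁m : ∀ r : chartAlg O F₀ {j⁻¹}, (r : F₀) ∈ V₁ := fun r => ((hW _).1 (hWm.le r)).1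
  have hV₂m : ∀ r : chartAlg O F₀ {j⁻¹}, (r : F₀) ∈ V₂ := fun r => ((hW _).1 (hWm.le r)).2
  -- an element of both maximal ideals lies in `π W`
  have key : ∀ x : F₀, x ∈ V₁.nonunits → x ∈ V₂.nonunits →
      ∃ w ∈ W, x = algebraMap O F₀ π * w := fun x h1 h2 =>
    ⟨(algebraMap O F₀ π)⁻¹ * x, (hW _).2 ⟨hu₁ x h1, hu₂ x h2⟩, by field_simp⟩
  -- nonunits are closed under the relevant operations
  have hmul₁ : ∀ {x y : F₀}, x ∈ V₁.nonunits → y ∈ V₁ → x * y ∈ V₁.nonunits :=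
    fun {x y} hx hy => mul_mem_nonunits V₁ hx hy
  have hmul₂ : ∀ {x y : F₀}, x ∈ V₂.nonunits → y ∈ V₂ → x * y ∈ V₂.nonunits :=
    fun {x y} hx hy => mul_mem_nonunits V₂ hx hy
  have hidem : ∃ w ∈ W, (bp : F₀) ^ 2 - bp = algebraMap O F₀ π * w := by
    have e : (bp : F₀) ^ 2 - bp = -((ap : F₀) * bp) := by
      have : (ap : F₀) = 1 - bp := by linear_combination habp'
      rw [this]; ring
    rw [e]
    refine key _ ?_ ?_
    · exact V₁.nonunits.neg_mem (hmul₁ hap (hV₁p bp))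
    · rw [mul_comm]; exact V₂.nonunits.neg_mem (hmul₂ hbp (hV₂p ap))
  have hcompat : ∃ w ∈ W, (bp : F₀) - bm = algebraMap O F₀ π * w := by
    refine key _ ?_ ?_
    · have e : (bp : F₀) - bm = am - ap := by linear_combination habp' - habm'
      rw [e]
      exact V₁.nonunits.sub_mem ham hap
    · exact V₂.nonunits.sub_mem hbp hbm
  have hone₁ : (1 : F₀) ∉ V₁.nonunits := one_notMem_nonunits V₁
  have hone₂ : (1 : F₀) ∉ V₂.nonunits := one_notMem_nonunits V₂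
  rcases idempotent_mod_eq_zero_or_one (K₀ := K₀) j hj hπ halg W hWp hWm bp bm hidem hcompat with
    ⟨w, hw, h⟩ | ⟨w, hw, h⟩
  · -- `bp ∈ π W ⊆ 𝔪(V₁)`, `ap ∈ 𝔪(V₁)`
    apply hone₁
    rw [← habp', h]
    exact V₁.nonunits.add_mem hap (hmul₁ hπ₁ ((hW _).1 hw).1)
  · -- `bp - 1 = -ap ∈ π W ⊆ 𝔪(V₂)`
    apply hone₂
    have e : (1 : F₀) = bp - algebraMap O F₀ π * w := by rw [← h]; ring
    rw [e]
    exact V₂.nonunits.sub_mem hbp (hmul₂ hπ₂ ((hW _).1 hw).2)

omit [IsDomain O] [IsDiscreteValuationRing O] [CharZero K₀] [IsFractionRing O K₀]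
  [IsScalarTower O K₀ F₀] [Algebra K₀ F₀] [Field K₀] [Algebra O K₀] in
/-- The centre of a valuation ring `V ⊇ R` on a subalgebra `R` of `F₀`. -/
def centre (R : Subalgebra O F₀) (V : ValuationSubring F₀) (hV : ∀ r : R, (r : F₀) ∈ V) : Ideal R where
  carrier := {r | (r : F₀) ∈ V.nonunits}
  zero_mem' := V.nonunits.zero_mem
  add_mem' := fun {a b} ha hb => V.nonunits.add_mem ha hb
  smul_mem' := fun c {a} ha => by
    show ((c * a : R) : F₀) ∈ V.nonunits
    rw [MulMemClass.coe_mul, mul_comm]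
    exact mul_mem_nonunits V ha (hV c)

omit [IsDomain O] [IsDiscreteValuationRing O] [CharZero K₀] [IsFractionRing O K₀]
  [IsScalarTower O K₀ F₀] [Algebra K₀ F₀] [Field K₀] [Algebra O K₀] in
theorem mem_centre {R : Subalgebra O F₀} {V : ValuationSubring F₀} {hV : ∀ r : R, (r : F₀) ∈ V}
    {r : R} : r ∈ centre R V hV ↔ (r : F₀) ∈ V.nonunits := Iff.rfl

omit [IsDomain O] [IsDiscreteValuationRing O] [CharZero K₀] [IsFractionRing O K₀]
  [IsScalarTower O K₀ F₀] [Algebra K₀ F₀] [Field K₀] [Algebra O K₀] in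
theorem centre_isPrime (R : Subalgebra O F₀) (V : ValuationSubring F₀)
    (hV : ∀ r : R, (r : F₀) ∈ V) : (centre R V hV).IsPrime := by
  refine ⟨fun h => ?_, fun {a b} hab => ?_⟩
  · have h1 : (1 : R) ∈ centre R V hV := by rw [h]; trivial
    rw [mem_centre, OneMemClass.coe_one] at h1
    exact one_notMem_nonunits V h1
  · rw [mem_centre, MulMemClass.coe_mul, V.mem_nonunits_iff, map_mul] at hab
    rw [mem_centre, mem_centre, V.mem_nonunits_iff, V.mem_nonunits_iff]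
    by_contra hcon
    push Not at hcon
    have ha1 : V.valuation (a : F₀) = 1 :=
      le_antisymm ((V.valuation_le_one_iff _).2 (hV a)) hcon.1
    have hb1 : V.valuation (b : F₀) = 1 :=
      le_antisymm ((V.valuation_le_one_iff _).2 (hV b)) hcon.2
    rw [ha1, hb1, one_mul] at hab
    exact lt_irrefl _ hab

/-- **Existence of a crossing point.**  `W = V₁ ∩ V₂` for two valuation rings of `F₀` in which `π` is a
uniformiser: there is a maximal ideal of `R₊` or of `R₋` containing the centres of BOTH `V₁` and `V₂`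
(a closed point of the special fibre lying on both components). -/
theorem exists_crossing (j : F₀) (hj : Transcendental K₀ j)
    [FiniteDimensional K₀⟮j⟯ F₀] {π : O} (hπ : Irreducible π)
    (halg : ∀ x : F₀, IsAlgebraic K₀ x → x ∈ (algebraMap K₀ F₀).range)
    (W : Subring F₀)
    (hWp : IsSemiGaussRing W (algebraMap O (chartAlg O F₀ {j}) π))
    (hWm : IsSemiGaussRing W (algebraMap O (chartAlg O F₀ {j⁻¹}) π))
    (V₁ V₂ : ValuationSubring F₀) (hW : ∀ x : F₀, x ∈ W ↔ x ∈ V₁ ∧ x ∈ V₂)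
    (hπ₁ : algebraMap O F₀ π ∈ V₁.nonunits) (hπ₂ : algebraMap O F₀ π ∈ V₂.nonunits)
    (hu₁ : ∀ x ∈ V₁.nonunits, (algebraMap O F₀ π)⁻¹ * x ∈ V₁)
    (hu₂ : ∀ x ∈ V₂.nonunits, (algebraMap O F₀ π)⁻¹ * x ∈ V₂) :
    (∃ 𝔫 : Ideal (chartAlg O F₀ {j}), 𝔫.IsMaximal ∧
      ∀ r : chartAlg O F₀ {j}, ((r : F₀) ∈ V₁.nonunits ∨ (r : F₀) ∈ V₂.nonunits) → r ∈ 𝔫) ∨
    (∃ 𝔫 : Ideal (chartAlg O F₀ {j⁻¹}), 𝔫.IsMaximal ∧
      ∀ r : chartAlg O F₀ {j⁻¹}, ((r : F₀) ∈ V₁.nonunits ∨ (r : F₀) ∈ V₂.nonunits) → r ∈ 𝔫) := by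
  classical
  have hV₁p : ∀ r : chartAlg O F₀ {j}, (r : F₀) ∈ V₁ := fun r => ((hW _).1 (hWp.le r)).1
  have hV₂p : ∀ r : chartAlg O F₀ {j}, (r : F₀) ∈ V₂ := fun r => ((hW _).1 (hWp.le r)).2
  have hV₁m : ∀ r : chartAlg O F₀ {j⁻¹}, (r : F₀) ∈ V₁ := fun r => ((hW _).1 (hWm.le r)).1
  have hV₂m : ∀ r : chartAlg O F₀ {j⁻¹}, (r : F₀) ∈ V₂ := fun r => ((hW _).1 (hWm.le r)).2
  by_cases hp : centre (chartAlg O F₀ {j}) V₁ hV₁p ⊔ centre (chartAlg O F₀ {j}) V₂ hV₂p = ⊤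
  · by_cases hm : centre (chartAlg O F₀ {j⁻¹}) V₁ hV₁m ⊔ centre (chartAlg O F₀ {j⁻¹}) V₂ hV₂m = ⊤
    · exfalso
      have h1 := (Ideal.eq_top_iff_one _).1 hp
      have h2 := (Ideal.eq_top_iff_one _).1 hm
      rw [Submodule.mem_sup] at h1 h2
      obtain ⟨a, ha, b, hb, hab⟩ := h1
      obtain ⟨a', ha', b', hb', hab'⟩ := h2
      exact not_comaximal (K₀ := K₀) j hj hπ halg W hWp hWm V₁ V₂ hW hπ₁ hπ₂ hu₁ hu₂
        ⟨a, b, ha, hb, hab⟩ ⟨a', b', ha', hb', hab'⟩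
    · right
      obtain ⟨𝔫, h𝔫, hle⟩ := Ideal.exists_le_maximal _ hm
      refine ⟨𝔫, h𝔫, fun r hr => ?_⟩
      rcases hr with hr | hr
      · exact hle (Ideal.mem_sup_left (mem_centre.2 hr))
      · exact hle (Ideal.mem_sup_right (mem_centre.2 hr))
  · left
    obtain ⟨𝔫, h𝔫, hle⟩ := Ideal.exists_le_maximal _ hp
    refine ⟨𝔫, h𝔫, fun r hr => ?_⟩
    rcases hr with hr | hr
    · exact hle (Ideal.mem_sup_left (mem_centre.2 hr))
    · exact hle (Ideal.mem_sup_right (mem_centre.2 hr))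

omit [IsDomain O] [IsDiscreteValuationRing O] [CharZero K₀] [IsFractionRing O K₀]
  [IsScalarTower O K₀ F₀] [Algebra K₀ F₀] [Field K₀] [Algebra O K₀] in
/-- **Constant residues agree at a crossing point.**  `𝔫` a proper ideal of a subalgebra `R ⊆ V₁ ∩ V₂`
containing the centres of `V₁` and `V₂`; `υ = r / s` with `s ∉ 𝔫` a local function at `𝔫` which is
congruent to the constant `a₁` at `V₁` and to the constant `a₂` at `V₂`.  Then `a₁ - a₂` is not a unit
of `O`. -/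
theorem not_isUnit_sub_of_crossing (R : Subalgebra O F₀) (V₁ V₂ : ValuationSubring F₀)
    (hV₁ : ∀ r : R, (r : F₀) ∈ V₁) (hV₂ : ∀ r : R, (r : F₀) ∈ V₂)
    (𝔫 : Ideal R) (h𝔫 : 𝔫.IsPrime)
    (hcross : ∀ r : R, ((r : F₀) ∈ V₁.nonunits ∨ (r : F₀) ∈ V₂.nonunits) → r ∈ 𝔫)
    {υ : F₀} {r s : R} (hs : s ∉ 𝔫) (hυ : υ * (s : F₀) = r) {a₁ a₂ : O}
    (h₁ : υ - algebraMap O F₀ a₁ ∈ V₁.nonunits) (h₂ : υ - algebraMap O F₀ a₂ ∈ V₂.nonunits) :
    ¬ IsUnit (a₁ - a₂) := by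
  intro hu
  have e₁ : ((r - algebraMap O R a₁ * s : R) : F₀) = (υ - algebraMap O F₀ a₁) * s := by
    rw [AddSubgroupClass.coe_sub, MulMemClass.coe_mul, ← hυ]
    show υ * (s : F₀) - algebraMap O F₀ a₁ * s = _
    ring
  have e₂ : ((r - algebraMap O R a₂ * s : R) : F₀) = (υ - algebraMap O F₀ a₂) * s := by
    rw [AddSubgroupClass.coe_sub, MulMemClass.coe_mul, ← hυ]
    show υ * (s : F₀) - algebraMap O F₀ a₂ * s = _
    ring
  have m₁ : r - algebraMap O R a₁ * s ∈ 𝔫 :=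
    hcross _ (Or.inl (by rw [e₁]; exact mul_mem_nonunits V₁ h₁ (hV₁ s)))
  have m₂ : r - algebraMap O R a₂ * s ∈ 𝔫 :=
    hcross _ (Or.inr (by rw [e₂]; exact mul_mem_nonunits V₂ h₂ (hV₂ s)))
  have m₃ : algebraMap O R (a₁ - a₂) * s ∈ 𝔫 := by
    have : algebraMap O R (a₁ - a₂) * s =
        (r - algebraMap O R a₂ * s) - (r - algebraMap O R a₁ * s) := by
      rw [map_sub]; ring
    rw [this]
    exact 𝔫.sub_mem m₂ m₁
  rcases h𝔫.mem_or_mem m₃ with h | h
  · exact h𝔫.ne_top (Ideal.eq_top_of_isUnit_mem _ h (hu.map (algebraMap O R)))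
  · exact hs h

end Fermat.Agent.P3G.Cover.Connected
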